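import Fermat.Agent.S56.H966.Tw
import Fermat.Agent.S14.H894.Cyclo
import Fermat.Agent.S14.H894.LocalI
import Fermat.Agent.S56.H716.SBSpec
import Fermat.Agent.S56.H734.KummerP

/-!
# Row S56 — leaf LOC-SO, complete (helper656): `locOrdP : H716.LocOrdPStatement`

The frozen layer-2 leaf `LocOrdPStatement` of `S56/H716/SBSpec.lean`: at a place `P | p`, the
classes on `D_P` of the `ad⁰`-cocycles having a strictly ordinary lift with cyclotomic
determinant lie in a space of dimension `≤ h⁰(D_P, ad⁰ρ̄) + 1`.  Uses KUMMER-P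
(`H734.kummerP`).  Single file (sections: dual-number coordinates, structure of a strictly
ordinary lift, inertia at `p` acts non-trivially on `μ_p`, linear algebra, cocycle calculus,
the bound).  Nothing unproved in this file.
-/
/-!
# S56 / LOC-SO (helper656): coordinates on `k[ε] ⊗ V`

Every element of `k[ε] ⊗_k V` is uniquely `1 ⊗ v₀ + ε • (1 ⊗ v₁)`.  We provide the two coordinate
maps `dPi0`, `dPi1`, the inclusion `dIota`, and the formulas for scalar multiplication, base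
changed endomorphisms and `liftEnd` in these coordinates.
-/

set_option autoImplicit false

open scoped TensorProduct

noncomputable section

namespace Fermat.Agent.S56.H656

open Fermat.Agent.S56 Fermat.Agent.S56.H716

section coord

variable {k : Type} [Field k] {V : Type} [AddCommGroup V] [Module k V]

/-- `v ↦ 1 ⊗ v`. -/
def dIota : V →ₗ[k] (DualNumber k ⊗[k] V) := TensorProduct.mk k (DualNumber k) V 1

/-- The constant coordinate of an element of `k[ε] ⊗ V`. -/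
def dPi0 : (DualNumber k ⊗[k] V) →ₗ[k] V :=
  TensorProduct.lift ((LinearMap.lsmul k V).comp (TrivSqZeroExt.fstHom k k k).toLinearMap)

/-- The `ε`-coordinate of an element of `k[ε] ⊗ V`. -/
def dPi1 : (DualNumber k ⊗[k] V) →ₗ[k] V :=
  TensorProduct.lift ((LinearMap.lsmul k V).comp (TrivSqZeroExt.sndHom k k))

@[simp] theorem dIota_apply (v : V) : dIota (k := k) v = (1 : DualNumber k) ⊗ₜ[k] v := rfl

@[simp] theorem dPi0_tmul (a : DualNumber k) (v : V) :
    dPi0 (a ⊗ₜ[k] v) = TrivSqZeroExt.fst a • v := by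
  simp [dPi0]

@[simp] theorem dPi1_tmul (a : DualNumber k) (v : V) :
    dPi1 (a ⊗ₜ[k] v) = TrivSqZeroExt.snd a • v := by
  simp [dPi1]

theorem dPi0_dIota (v : V) : dPi0 (dIota (k := k) v) = v := by simp

theorem dPi1_dIota (v : V) : dPi1 (dIota (k := k) v) = 0 := by simp

theorem dualNumber_eq (a : DualNumber k) :
    a = TrivSqZeroExt.fst a • (1 : DualNumber k) + TrivSqZeroExt.snd a • DualNumber.eps := by
  apply TrivSqZeroExt.ext <;> simp

theorem tmul_eq_coord (a : DualNumber k) (v : V) :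
    a ⊗ₜ[k] v = dIota (TrivSqZeroExt.fst a • v) +
      (DualNumber.eps : DualNumber k) • dIota (TrivSqZeroExt.snd a • v) := by
  have h1 : dIota (k := k) (TrivSqZeroExt.fst a • v) =
      (TrivSqZeroExt.fst a • (1 : DualNumber k)) ⊗ₜ[k] v := by
    rw [dIota_apply, TensorProduct.smul_tmul]
  have h2 : (DualNumber.eps : DualNumber k) • dIota (k := k) (TrivSqZeroExt.snd a • v) =
      (TrivSqZeroExt.snd a • (DualNumber.eps : DualNumber k)) ⊗ₜ[k] v := by
    rw [dIota_apply, TensorProduct.smul_tmul', smul_eq_mul, mul_one, TensorProduct.smul_tmul]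
  rw [h1, h2, ← TensorProduct.add_tmul, ← dualNumber_eq a]

/-- Every element is `ι (π₀ w) + ε • ι (π₁ w)`. -/
theorem eq_coord (w : DualNumber k ⊗[k] V) :
    w = dIota (dPi0 w) + (DualNumber.eps : DualNumber k) • dIota (dPi1 w) := by
  induction w using TensorProduct.induction_on with
  | zero => simp
  | tmul a v => rw [dPi0_tmul, dPi1_tmul]; exact tmul_eq_coord a v
  | add x y hx hy =>
    rw [map_add, map_add, map_add, map_add, smul_add]
    conv_lhs => rw [hx, hy]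
    abel

theorem dPi0_smul (x : DualNumber k) (w : DualNumber k ⊗[k] V) :
    dPi0 (x • w) = TrivSqZeroExt.fst x • dPi0 w := by
  induction w using TensorProduct.induction_on with
  | zero => simp
  | tmul a v =>
    rw [TensorProduct.smul_tmul', dPi0_tmul, dPi0_tmul, smul_eq_mul, TrivSqZeroExt.fst_mul,
      mul_smul]
  | add x' y hx hy => rw [smul_add, map_add, map_add, hx, hy, smul_add]

theorem dPi1_smul (x : DualNumber k) (w : DualNumber k ⊗[k] V) :
    dPi1 (x • w) = TrivSqZeroExt.fst x • dPi1 w + TrivSqZeroExt.snd x • dPi0 w := by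
  induction w using TensorProduct.induction_on with
  | zero => simp
  | tmul a v =>
    rw [TensorProduct.smul_tmul', dPi1_tmul, dPi1_tmul, dPi0_tmul, smul_eq_mul,
      TrivSqZeroExt.snd_mul]
    simp only [smul_eq_mul, MulOpposite.smul_eq_mul_unop, MulOpposite.unop_op, add_smul,
      mul_smul]
  | add x' y hx hy =>
    rw [smul_add, map_add, map_add, map_add, hx, hy, smul_add, smul_add]
    abel

theorem dPi0_baseChange (f : Module.End k V) (w : DualNumber k ⊗[k] V) :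
    dPi0 (f.baseChange (DualNumber k) w) = f (dPi0 w) := by
  induction w using TensorProduct.induction_on with
  | zero => simp
  | tmul a v => rw [LinearMap.baseChange_tmul, dPi0_tmul, dPi0_tmul, map_smul]
  | add x y hx hy => rw [map_add, map_add, map_add, hx, hy, map_add]

theorem dPi1_baseChange (f : Module.End k V) (w : DualNumber k ⊗[k] V) :
    dPi1 (f.baseChange (DualNumber k) w) = f (dPi1 w) := by
  induction w using TensorProduct.induction_on with
  | zero => simp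
  | tmul a v => rw [LinearMap.baseChange_tmul, dPi1_tmul, dPi1_tmul, map_smul]
  | add x y hx hy => rw [map_add, map_add, map_add, hx, hy, map_add]

theorem coord_ext {w w' : DualNumber k ⊗[k] V} (h0 : dPi0 w = dPi0 w') (h1 : dPi1 w = dPi1 w') :
    w = w' := by
  rw [eq_coord w, eq_coord w', h0, h1]

end coord

section lift

variable {k : Type} [Field k] (ρbar : ResidualGaloisRep k)

theorem dPi0_liftEnd (c : GQ → Module.End k ρbar.V) (σ : GQ)
    (w : DualNumber k ⊗[k] ρbar.V) :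
    dPi0 (liftEnd ρbar c σ w) = ρbar.ρ σ (dPi0 w) := by
  unfold liftEnd
  rw [LinearMap.add_apply, LinearMap.smul_apply, map_add, dPi0_smul, dPi0_baseChange,
    DualNumber.fst_eps, zero_smul, add_zero]

theorem dPi1_liftEnd (c : GQ → Module.End k ρbar.V) (σ : GQ)
    (w : DualNumber k ⊗[k] ρbar.V) :
    dPi1 (liftEnd ρbar c σ w) = ρbar.ρ σ (dPi1 w) + c σ (ρbar.ρ σ (dPi0 w)) := by
  unfold liftEnd
  rw [LinearMap.add_apply, LinearMap.smul_apply, map_add, dPi1_smul, dPi1_baseChange,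
    dPi0_baseChange, DualNumber.fst_eps, DualNumber.snd_eps, zero_smul, zero_add, one_smul,
    Module.End.mul_apply]

end lift

end Fermat.Agent.S56.H656

end

/-!
# S56 / LOC-SO (helper656), part 1: the shape of a strict-ordinary tangent cocycle on `D_P`

Let `ρ'` be a lift of `ρ̄` to the dual numbers `k[ε]` with cocycle `c` (`IsLiftOf ρbar c ρ'`),
with cyclotomic determinant and strict-ordinary at `p` (`p` odd).  For a place `P` over `p` the
strict-ordinary line of `ρ'` has a generator with coordinates `(ℓ₀, ℓ₁)`, `ℓ₀ ≠ 0`, and for every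
`σ ∈ D_P` there is `z₀ ∈ k` with `z₀² = 1` such that (with `a` a cyclotomic exponent of `σ`)

* `ρ̄(σ) ℓ₀ = a z₀ ℓ₀` and `ρ̄(σ) ℓ₁ + c(σ) ρ̄(σ) ℓ₀ = a z₀ ℓ₁`   (NO `ε`-part: rigidity),
* `ρ̄(σ) v − z₀ v = s ℓ₀` and `c(σ) ρ̄(σ) v = s ℓ₁ + t ℓ₀` for every `v`,
* `z₀ = 1` if `σ` is in the inertia group.

This is `locSO_struct`.  The rigidity `z² = 1 ⇒ z ∈ {±1} ⊂ k` uses `DetIsCyclotomic` and `p ≠ 2`.
-/

set_option autoImplicit false

open scoped TensorProduct
open IsLocalRing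

noncomputable section

namespace Fermat.Agent.S56.H656

open Fermat.Agent.S56 Fermat.Agent.S56.H716

section dual

variable {k : Type} [Field k]

theorem fst_eq_zero_of_mem_maximalIdeal {x : DualNumber k}
    (hx : x ∈ maximalIdeal (DualNumber k)) : TrivSqZeroExt.fst x = 0 := by
  by_contra h
  have hu : IsUnit x := TrivSqZeroExt.isUnit_iff_isUnit_fst.mpr (isUnit_iff_ne_zero.mpr h)
  exact (mem_maximalIdeal x).mp hx hu

theorem natCast_dual_eq_zero {p : ℕ} (hp : (p : DualNumber k) ∈ maximalIdeal (DualNumber k)) :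
    (p : DualNumber k) = 0 := by
  apply TrivSqZeroExt.ext
  · exact fst_eq_zero_of_mem_maximalIdeal hp
  · simp

theorem natCast_eq_zero_of_mem {p : ℕ}
    (hp : (p : DualNumber k) ∈ maximalIdeal (DualNumber k)) : (p : k) = 0 := by
  have := fst_eq_zero_of_mem_maximalIdeal hp
  rwa [TrivSqZeroExt.fst_natCast] at this

theorem span_pow_one_eq_bot {p : ℕ} (hp : (p : DualNumber k) ∈ maximalIdeal (DualNumber k)) :
    Ideal.span {(((p ^ 1 : ℕ)) : DualNumber k)} = ⊥ := by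
  rw [pow_one, natCast_dual_eq_zero hp, Ideal.span_singleton_eq_bot]

/-- In `k[ε]`, `char k ≠ 2`: `z * z = 1` forces `z` to be a constant `±1`. -/
theorem snd_eq_zero_of_mul_self_eq_one (h2 : (2 : k) ≠ 0) {z : DualNumber k} (hz : z * z = 1) :
    TrivSqZeroExt.fst z * TrivSqZeroExt.fst z = 1 ∧ TrivSqZeroExt.snd z = 0 := by
  have h0 : TrivSqZeroExt.fst z * TrivSqZeroExt.fst z = 1 := by
    have := congrArg TrivSqZeroExt.fst hz
    simpa using this
  refine ⟨h0, ?_⟩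
  have h1 := congrArg TrivSqZeroExt.snd hz
  simp only [TrivSqZeroExt.snd_mul, TrivSqZeroExt.snd_one, smul_eq_mul,
    MulOpposite.smul_eq_mul_unop, MulOpposite.unop_op] at h1
  have hz0 : TrivSqZeroExt.fst z ≠ 0 := by
    intro h
    rw [h, mul_zero] at h0
    exact zero_ne_one h0
  have h3 : (2 : k) * (TrivSqZeroExt.fst z * TrivSqZeroExt.snd z) = 0 := by
    rw [← h1]; ring
  rcases mul_eq_zero.mp h3 with h | h
  · exact absurd h h2
  · rcases mul_eq_zero.mp h with h | h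
    · exact absurd h hz0
    · exact h

end dual

section cyc

variable {k : Type} [Field k]

/-- A cyclotomic exponent is nonzero in characteristic `p`. -/
theorem isCycExp_cast_ne_zero {p : ℕ} (hp : p.Prime) [CharP k p] {σ : GQ} {a : ℕ}
    (ha : IsCycExp p σ a) : (a : k) ≠ 0 := by
  intro h0
  obtain ⟨ζ, hζ⟩ := Fermat.Agent.S56.H966.exists_primitiveRoot_Qb p hp.ne_zero
  have hdvd : p ∣ a := (CharP.cast_eq_zero_iff k p a).mp h0
  have h1 : σ ζ = 1 := by
    rw [ha ζ hζ.pow_eq_one]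
    obtain ⟨b, rfl⟩ := hdvd
    rw [pow_mul, hζ.pow_eq_one, one_pow]
  have h2 : ζ = 1 := by
    have : σ ζ = σ 1 := by rw [h1, map_one]
    exact σ.injective this
  exact hp.one_lt.ne' (hζ.unique (h2 ▸ IsPrimitiveRoot.one) )

end cyc

section struct

variable {k : Type} [Field k] (ρbar : ResidualGaloisRep k)

theorem mem_decomposition_of_mem_inertia {P : ValuationSubring Qb} {σ : GQ}
    (hσ : σ ∈ P.inertiaSubgroupIn ℚ) : σ ∈ P.decompositionSubgroup ℚ := by
  obtain ⟨x, -, rfl⟩ := Subgroup.mem_map.mp hσ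
  exact x.2

/-- **LOC-SO, part 1** (see the module docstring). -/
theorem locSO_struct (p : ℕ) (hp : p.Prime) (hp2 : p ≠ 2)
    (c : GQ → Module.End k ρbar.V) (ρ' : GaloisRepAdic (DualNumber k))
    (hlift : IsLiftOf ρbar c ρ') (hdet : ρ'.DetIsCyclotomic p) (hso : ρ'.IsStrictOrdinaryAt p)
    (P : ValuationSubring Qb) (hP : P.LiesOverPrime p) :
    ∃ ℓ₀ ℓ₁ : ρbar.V, ℓ₀ ≠ 0 ∧
      ∀ σ ∈ P.decompositionSubgroup ℚ, ∃ z₀ : k, z₀ * z₀ = 1 ∧
        (∀ a : ℕ, IsCycExp p σ a →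
          ρbar.ρ σ ℓ₀ = ((a : k) * z₀) • ℓ₀ ∧
          ρbar.ρ σ ℓ₁ + c σ (ρbar.ρ σ ℓ₀) = ((a : k) * z₀) • ℓ₁) ∧
        (∀ v : ρbar.V, ∃ s t : k, ρbar.ρ σ v - z₀ • v = s • ℓ₀ ∧
          c σ (ρbar.ρ σ v) = s • ℓ₁ + t • ℓ₀) ∧
        (σ ∈ P.inertiaSubgroupIn ℚ → z₀ = 1) := by
  classical
  have hpm := hso.1
  have hpk : (p : k) = 0 := natCast_eq_zero_of_mem hpm
  have : CharP k p := (CharP.charP_iff_prime_eq_zero hp).mpr hpk
  have h2k : (2 : k) ≠ 0 := by
    intro h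
    have h' : ((2 : ℕ) : k) = 0 := by exact_mod_cast h
    have hdvd : p ∣ 2 := (CharP.cast_eq_zero_iff k p 2).mp h'
    exact hp2 ((Nat.prime_dvd_prime_iff_eq hp Nat.prime_two).mp hdvd)
  have hbot := span_pow_one_eq_bot (k := k) hpm
  obtain ⟨L, ⟨b, hLb⟩, -, hI, hchar⟩ := hso.2 P hP
  obtain ⟨e, he⟩ := hlift
  have hb0L : b 0 ∈ L := by rw [hLb]; exact Submodule.mem_span_singleton_self _
  refine ⟨dPi0 (e (b 0)), dPi1 (e (b 0)), ?_, ?_⟩
  · -- `ℓ₀ ≠ 0`
    intro h0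
    have hε : (DualNumber.eps : DualNumber k) • e (b 0) = 0 := by
      apply coord_ext
      · rw [dPi0_smul, h0, smul_zero, map_zero]
      · rw [dPi1_smul, h0, DualNumber.fst_eps, zero_smul, smul_zero, add_zero, map_zero]
    rw [← map_smul, LinearEquiv.map_eq_zero_iff] at hε
    have h1 := congrArg (fun f => b.repr f 0) hε
    simp only [map_smul, Module.Basis.repr_self, Finsupp.smul_apply, Finsupp.single_eq_same,
      smul_eq_mul, mul_one, map_zero, Finsupp.zero_apply] at h1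
    have h2 := congrArg TrivSqZeroExt.snd h1
    simp at h2
  · intro σ hσ
    obtain ⟨x, z, hx, hz, hcyc⟩ := hchar σ hσ
    obtain ⟨a₀, ha₀⟩ := Fermat.Agent.S56.H966.exists_isCycExp p hp.ne_zero σ
    have hcond : ∀ a : ℕ, IsCycExp p σ a → ∀ μ : Qb, μ ^ p ^ 1 = 1 → σ μ = μ ^ a := by
      intro a ha μ hμ
      rw [pow_one] at hμ
      exact ha μ hμ
    -- `x = a z` and `det = a`
    have hxz : ∀ a : ℕ, IsCycExp p σ a → x = (a : DualNumber k) * z := by
      intro a ha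
      have := hcyc 1 a (hcond a ha)
      rw [hbot, Ideal.mem_bot, sub_eq_zero] at this
      exact this
    have hdeta : ∀ a : ℕ, IsCycExp p σ a → LinearMap.det (ρ'.ρ σ) = (a : DualNumber k) := by
      intro a ha
      have := hdet.2 1 σ a (hcond a ha)
      rw [hbot, Ideal.mem_bot, sub_eq_zero] at this
      exact this
    -- the matrix of `ρ'(σ)` in the basis `b`
    obtain ⟨t₁, ht₁⟩ : ∃ t₁ : DualNumber k, ρ'.ρ σ (b 1) - z • b 1 = t₁ • b 0 := by
      have := hz (b 1)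
      rw [hLb, Submodule.mem_span_singleton] at this
      obtain ⟨t, ht⟩ := this
      exact ⟨t, ht.symm⟩
    have hb1 : ρ'.ρ σ (b 1) = z • b 1 + t₁ • b 0 := by
      rw [← ht₁]; abel
    have hdetxz : LinearMap.det (ρ'.ρ σ) = x * z := by
      rw [← LinearMap.det_toMatrix b, Matrix.det_fin_two]
      simp only [LinearMap.toMatrix_apply, hx (b 0) hb0L, hb1, map_smul, map_add,
        Module.Basis.repr_self, Finsupp.smul_apply, Finsupp.add_apply, smul_eq_mul]
      simp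
    have hzz : z * z = 1 := by
      have h1 : (a₀ : DualNumber k) * (z * z) = (a₀ : DualNumber k) := by
        calc (a₀ : DualNumber k) * (z * z) = ((a₀ : DualNumber k) * z) * z := by ring
          _ = x * z := by rw [← hxz a₀ ha₀]
          _ = LinearMap.det (ρ'.ρ σ) := hdetxz.symm
          _ = (a₀ : DualNumber k) := hdeta a₀ ha₀
      have hunit : IsUnit (a₀ : DualNumber k) := by
        rw [TrivSqZeroExt.isUnit_iff_isUnit_fst, TrivSqZeroExt.fst_natCast]
        exact isUnit_iff_ne_zero.mpr (isCycExp_cast_ne_zero hp ha₀)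
      have h2 : (a₀ : DualNumber k) * (z * z) = (a₀ : DualNumber k) * 1 := by rw [h1, mul_one]
      exact hunit.mul_left_cancel h2
    obtain ⟨hz0, hz1⟩ := snd_eq_zero_of_mul_self_eq_one h2k hzz
    have hxfst : ∀ a : ℕ, IsCycExp p σ a → TrivSqZeroExt.fst x = (a : k) * TrivSqZeroExt.fst z := by
      intro a ha
      rw [hxz a ha, TrivSqZeroExt.fst_mul, TrivSqZeroExt.fst_natCast]
    have hxsnd : TrivSqZeroExt.snd x = 0 := by
      rw [hxz a₀ ha₀, TrivSqZeroExt.snd_mul, hz1, TrivSqZeroExt.snd_natCast]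
      simp
    refine ⟨TrivSqZeroExt.fst z, hz0, ?_, ?_, ?_⟩
    · intro a ha
      have hA : liftEnd ρbar c σ (e (b 0)) = x • e (b 0) := by
        rw [← he, hx (b 0) hb0L, map_smul]
      constructor
      · have := congrArg dPi0 hA
        rw [dPi0_liftEnd, dPi0_smul, hxfst a ha] at this
        exact this
      · have := congrArg dPi1 hA
        rw [dPi1_liftEnd, dPi1_smul, hxfst a ha, hxsnd, zero_smul, add_zero] at this
        exact this
    · intro v
      have hv := hz (e.symm (dIota v))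
      rw [hLb, Submodule.mem_span_singleton] at hv
      obtain ⟨t, ht⟩ := hv
      have hB : liftEnd ρbar c σ (dIota v) - z • dIota v = t • e (b 0) := by
        have := congrArg e ht
        rw [map_smul, map_sub, he, map_smul, LinearEquiv.apply_symm_apply] at this
        exact this.symm
      refine ⟨TrivSqZeroExt.fst t, TrivSqZeroExt.snd t, ?_, ?_⟩
      · have := congrArg dPi0 hB
        rw [map_sub, dPi0_liftEnd, dPi0_smul, dPi0_smul, dPi0_dIota] at this
        exact this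
      · have := congrArg dPi1 hB
        rw [map_sub, dPi1_liftEnd, dPi1_smul, dPi1_smul, dPi0_dIota, dPi1_dIota, hz1,
          map_zero, zero_add, smul_zero, zero_smul, add_zero, sub_zero] at this
        exact this
    · intro hσI
      -- on inertia `(z - 1) • b 1 ∈ L`, hence `z = 1`
      have h1 := hI σ hσI (b 1)
      have h2 := hz (b 1)
      have h3 : (z - 1) • b 1 ∈ L := by
        have : (z - 1) • b 1 = (ρ'.ρ σ (b 1) - b 1) - (ρ'.ρ σ (b 1) - z • b 1) := by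
          rw [sub_smul, one_smul]; abel
        rw [this]
        exact L.sub_mem h1 h2
      rw [hLb, Submodule.mem_span_singleton] at h3
      obtain ⟨t, ht⟩ := h3
      have h4 := congrArg (fun f => b.repr f 1) ht
      simp only [map_smul, Module.Basis.repr_self, Finsupp.smul_apply, smul_eq_mul] at h4
      have h5 : z - 1 = 0 := by
        have e1 : (Finsupp.single (0 : Fin 2) (1 : DualNumber k)) 1 = 0 := by
          rw [Finsupp.single_apply]; simp
        have e2 : (Finsupp.single (1 : Fin 2) (1 : DualNumber k)) 1 = 1 := by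
          rw [Finsupp.single_apply]; simp
        rw [e1, e2, mul_zero, mul_one] at h4
        exact h4.symm
      have h6 : z = 1 := sub_eq_zero.mp h5
      rw [h6, TrivSqZeroExt.fst_one]

end struct

end Fermat.Agent.S56.H656

end

/-!
# S56 / LOC-SO (helper656): inertia at `p` acts non-trivially on `μ_p` (`p` odd)

`exists_inertia_isCycExp_ne_one`: for a place `P` of `ℚ̄` over an odd prime `p` there is `σ` in the
inertia group of `P` with a cyclotomic exponent `a` on `μ_p` such that `a ≠ 1` in characteristic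
`p`.  (Total ramification of `ℚ(ζ_p)` at `p`, landed `S14/H894/TotRam`.)
-/

set_option autoImplicit false

noncomputable section

namespace Fermat.Agent.S56.H656

open Fermat.Agent.S56

/-- For every `g ∈ G_ℚ` there is `σ` in the inertia group of `P` (over `p`) with `σ ζ = g ζ`. -/
theorem exists_inertia_apply_eq {p : ℕ} (hp : p.Prime) (P : ValuationSubring Qb)
    (hP : P.LiesOverPrime p) {ζ : Qb} (hζ : IsPrimitiveRoot ζ p) (g : GQ) :
    ∃ σ ∈ P.inertiaSubgroupIn ℚ, σ ζ = g ζ := by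
  have hconj : ∀ τ : GQ, (∀ x ∈ (⊥ : IntermediateField ℚ Qb), τ x = x) →
      P.valuation (τ (ζ - 1)) = P.valuation (ζ - 1) := by
    intro τ _
    have hτζ : IsPrimitiveRoot (τ ζ) p := hζ.map_of_injective τ.injective
    rw [map_sub, map_one]
    exact Fermat.Agent.S14.H894.valuation_sub_one_eq_of_mem_primitiveRoots P p hp ζ hζ
      ((mem_primitiveRoots hp.pos).2 hτζ)
  have hbot : ∀ x ∈ (⊥ : IntermediateField ℚ Qb), g x = x := by
    intro x hx
    obtain ⟨q, rfl⟩ := IntermediateField.mem_bot.1 hx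
    exact g.commutes q
  obtain ⟨σ, hσ, -, hσγ⟩ := Fermat.Agent.S14.H894.exists_inertia_eq_on_adjoin P p hp hP ⊥
    (ζ - 1) (Fermat.Agent.S14.H894.cycloShift p) (Fermat.Agent.S14.H894.cycloShift_monic p)
    (Fermat.Agent.S14.H894.cycloShift_aeval p hp ζ hζ)
    (Fermat.Agent.S14.H894.cyclo_indep P p hp hP ζ hζ) hconj g hbot
  refine ⟨σ, hσ, ?_⟩
  rw [map_sub, map_sub, map_one, map_one] at hσγ
  exact sub_left_injective hσγ

/-- Some element of `G_ℚ` moves a primitive `p`-th root of unity, `p ≥ 3`. -/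
theorem exists_apply_ne_of_primitiveRoot {p : ℕ} (hp : p.Prime) (hp2 : p ≠ 2) {ζ : Qb}
    (hζ : IsPrimitiveRoot ζ p) : ∃ g : GQ, g ζ ≠ ζ := by
  have hnot : ζ ∉ (⊥ : IntermediateField ℚ Qb) := by
    intro hmem
    obtain ⟨q, hq⟩ := IntermediateField.mem_bot.1 hmem
    have hqp : q ^ p = 1 := by
      have h1 : (algebraMap ℚ Qb q) ^ p = 1 := by rw [hq, hζ.pow_eq_one]
      rw [← map_pow] at h1
      exact (algebraMap ℚ Qb).injective (by rw [h1, map_one])
    have hodd : Odd p := hp.odd_of_ne_two hp2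
    have hq1 : q = 1 := hodd.strictMono_pow.injective (by simpa using hqp)
    have hζ1 : ζ = 1 := by rw [← hq, hq1, map_one]
    exact hp.one_lt.ne' (hζ.unique (hζ1 ▸ IsPrimitiveRoot.one))
  obtain ⟨τ, -, hτ⟩ := Fermat.Agent.S14.H894.exists_fixing_ne_of_not_mem ⊥ ζ hnot
  exact ⟨τ, hτ⟩

/-- Inertia at `p` acts non-trivially on `μ_p` for `p` odd. -/
theorem exists_inertia_isCycExp_ne_one {p : ℕ} (hp : p.Prime) (hp2 : p ≠ 2)
    (k : Type) [Field k] [CharP k p] (P : ValuationSubring Qb) (hP : P.LiesOverPrime p) :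
    ∃ σ ∈ P.inertiaSubgroupIn ℚ, ∃ a : ℕ, IsCycExp p σ a ∧ (a : k) ≠ 1 := by
  obtain ⟨ζ, hζ⟩ := Fermat.Agent.S56.H966.exists_primitiveRoot_Qb p hp.ne_zero
  obtain ⟨g, hg⟩ := exists_apply_ne_of_primitiveRoot hp hp2 hζ
  obtain ⟨σ, hσ, hσζ⟩ := exists_inertia_apply_eq hp P hP hζ g
  obtain ⟨a, ha⟩ := Fermat.Agent.S56.H966.exists_isCycExp p hp.ne_zero σ
  refine ⟨σ, hσ, a, ha, ?_⟩
  intro h1
  apply hg
  rw [← hσζ, ha ζ hζ.pow_eq_one]
  have h2 : ((a : ℕ) : k) = ((1 : ℕ) : k) := by rw [h1, Nat.cast_one]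
  have h3 : a ≡ 1 [MOD p] := (CharP.natCast_eq_natCast k p).mp h2
  have hfin : IsOfFinOrder ζ :=
    isOfFinOrder_iff_pow_eq_one.mpr ⟨p, hp.pos, hζ.pow_eq_one⟩
  have h4 : ζ ^ a = ζ ^ 1 := by
    rw [hfin.pow_eq_pow_iff_modEq, ← hζ.eq_orderOf]
    exact h3
  rw [h4, pow_one]

end Fermat.Agent.S56.H656

end

/-!
# S56 / LOC-SO (helper656): the linear algebra (no Galois theory)

`V` is a plane over a field `k` with a basis `B`; `ℓ₀ = B 0` spans the "ordinary line".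
* `nil0 B`  — the nilpotent `n₀ : v ↦ g(v) ℓ₀` (`g = B.coord 1`), a generator of `Hom(V/L, L)`;
* `proj0 B` — the projector `d : v ↦ f(v) ℓ₀` (`f = B.coord 0`).
-/

set_option autoImplicit false

noncomputable section

namespace Fermat.Agent.S56.H656

variable {k : Type} [Field k] {V : Type} [AddCommGroup V] [Module k V]

/-- `n₀ : v ↦ (B.coord 1 v) • B 0`. -/
def nil0 (B : Module.Basis (Fin 2) k V) : Module.End k V := (B.coord 1).smulRight (B 0)

/-- `d : v ↦ (B.coord 0 v) • B 0`. -/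
def proj0 (B : Module.Basis (Fin 2) k V) : Module.End k V := (B.coord 0).smulRight (B 0)

variable (B : Module.Basis (Fin 2) k V)

@[simp] theorem nil0_apply (u : V) : nil0 B u = B.coord 1 u • B 0 := rfl

@[simp] theorem proj0_apply (u : V) : proj0 B u = B.coord 0 u • B 0 := rfl

theorem coord0_self : B.coord 0 (B 0) = 1 := by simp

theorem coord1_self0 : B.coord 1 (B 0) = 0 := by
  rw [Module.Basis.coord_apply, Module.Basis.repr_self, Finsupp.single_apply]; simp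

theorem coord0_self1 : B.coord 0 (B 1) = 0 := by
  rw [Module.Basis.coord_apply, Module.Basis.repr_self, Finsupp.single_apply]; simp

theorem coord1_self : B.coord 1 (B 1) = 1 := by simp

theorem basis0_ne_zero : B 0 ≠ 0 := B.ne_zero 0

theorem expand (u : V) : u = B.coord 0 u • B 0 + B.coord 1 u • B 1 := by
  have h := B.sum_repr u
  rw [Fin.sum_univ_two] at h
  exact h.symm

theorem smul_basis0_inj {s t : k} (h : s • B 0 = t • B 0) : s = t := by
  have := congrArg (B.coord 0) h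
  simpa using this

/-- An endomorphism killing `ℓ₀` with image in `k ℓ₀` is a multiple of `n₀`. -/
theorem eq_smul_nil0 (C : Module.End k V) (h0 : C (B 0) = 0)
    (h1 : ∀ u, ∃ t : k, C u = t • B 0) : C = B.coord 0 (C (B 1)) • nil0 B := by
  apply LinearMap.ext
  intro u
  obtain ⟨t, ht⟩ := h1 (B 1)
  conv_lhs => rw [expand B u]
  rw [map_add, map_smul, map_smul, h0, smul_zero, zero_add, LinearMap.smul_apply, nil0_apply,
    ht, map_smul, coord0_self, smul_eq_mul, mul_one, smul_smul, smul_smul, mul_comm]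

theorem coord0_smul_nil0_basis1 (κ : k) : B.coord 0 ((κ • nil0 B) (B 1)) = κ := by
  rw [LinearMap.smul_apply, nil0_apply, coord1_self, one_smul, map_smul, coord0_self,
    smul_eq_mul, mul_one]

theorem nil0_ne_zero : nil0 B ≠ 0 := by
  intro h
  have := coord0_smul_nil0_basis1 B 1
  rw [one_smul, h, LinearMap.zero_apply, map_zero] at this
  exact zero_ne_one this

theorem smul_nil0_inj {s t : k} (h : s • nil0 B = t • nil0 B) : s = t := by
  rw [← coord0_smul_nil0_basis1 B s, h, coord0_smul_nil0_basis1]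

section conj

variable (R Rinv : Module.End k V) (hR : R * Rinv = 1) (hR' : Rinv * R = 1)
  (x₀ z₀ : k) (hzz : z₀ * z₀ = 1) (h1 : R (B 0) = x₀ • B 0)
  (h3 : ∀ v, ∃ s : k, R v - z₀ • v = s • B 0)

include hR in
theorem apply_inv_apply' (u : V) : R (Rinv u) = u := by
  have := congrArg (fun F : Module.End k V => F u) hR
  simpa using this

include hR' in
theorem inv_apply_apply' (u : V) : Rinv (R u) = u := by
  have := congrArg (fun F : Module.End k V => F u) hR'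
  simpa using this

include hR hzz h3 in
theorem coord1_inv (u : V) : B.coord 1 (Rinv u) = z₀ * B.coord 1 u := by
  obtain ⟨s, hs⟩ := h3 (Rinv u)
  rw [apply_inv_apply' R Rinv hR] at hs
  have := congrArg (B.coord 1) hs
  rw [map_sub, map_smul, map_smul, coord1_self0, smul_eq_mul, smul_eq_mul, mul_zero,
    sub_eq_zero] at this
  rw [this, ← mul_assoc, hzz, one_mul]

include hR hzz h1 h3 in
/-- `R n₀ R⁻¹ = x₀ z₀ n₀`. -/
theorem conj_nil0 : R * nil0 B * Rinv = (x₀ * z₀) • nil0 B := by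
  apply LinearMap.ext
  intro u
  rw [Module.End.mul_apply, Module.End.mul_apply, nil0_apply, map_smul, h1,
    coord1_inv B R Rinv hR z₀ hzz h3, LinearMap.smul_apply, nil0_apply, smul_smul, smul_smul]
  congr 1
  ring

include hR' h1 in
theorem inv_basis0 (hx₀ : x₀ ≠ 0) : Rinv (B 0) = x₀⁻¹ • B 0 := by
  have h : Rinv (R (B 0)) = B 0 := inv_apply_apply' R Rinv hR' _
  rw [h1, map_smul] at h
  calc Rinv (B 0) = x₀⁻¹ • (x₀ • Rinv (B 0)) := by
        rw [smul_smul, inv_mul_cancel₀ hx₀, one_smul]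
    _ = x₀⁻¹ • B 0 := by rw [h]

include hR' h1 in
/-- `R d R⁻¹ − d` kills `ℓ₀`. -/
theorem conj_proj0_basis0 (hx₀ : x₀ ≠ 0) : (R * proj0 B * Rinv - proj0 B) (B 0) = 0 := by
  have e0 : B.coord 0 (x₀⁻¹ • B 0) = x₀⁻¹ := by
    rw [map_smul, coord0_self, smul_eq_mul, mul_one]
  have e1 : (R * proj0 B * Rinv) (B 0) = B 0 := by
    rw [Module.End.mul_apply, Module.End.mul_apply, inv_basis0 B R Rinv hR' x₀ h1 hx₀,
      proj0_apply, e0, map_smul, h1, smul_smul, inv_mul_cancel₀ hx₀, one_smul]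
  have e2 : proj0 B (B 0) = B 0 := by rw [proj0_apply, coord0_self, one_smul]
  rw [LinearMap.sub_apply, e1, e2, sub_self]

include h1 in
/-- `R d R⁻¹ − d` has image in `k ℓ₀`. -/
theorem conj_proj0_mem (u : V) : ∃ t : k, (R * proj0 B * Rinv - proj0 B) u = t • B 0 := by
  refine ⟨B.coord 0 (Rinv u) * x₀ - B.coord 0 u, ?_⟩
  rw [LinearMap.sub_apply, Module.End.mul_apply, Module.End.mul_apply, proj0_apply, proj0_apply,
    map_smul, h1, smul_smul, sub_smul]

end conj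

section cprime

variable (R Rinv C : Module.End k V) (hR : R * Rinv = 1) (hR' : Rinv * R = 1)
  (ℓ₁ : V) (x₀ z₀ : k) (hx₀ : x₀ ≠ 0)
  (h1 : R (B 0) = x₀ • B 0) (h2 : R ℓ₁ + C (R (B 0)) = x₀ • ℓ₁)
  (h3 : ∀ v, ∃ s t : k, R v - z₀ • v = s • B 0 ∧ C (R v) = s • ℓ₁ + t • B 0)

/-- The correcting endomorphism `m : v ↦ f(v) ℓ₁`. -/
def corr (ℓ₁ : V) : Module.End k V := (B.coord 0).smulRight ℓ₁

@[simp] theorem corr_apply (u : V) : corr B ℓ₁ u = B.coord 0 u • ℓ₁ := rfl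

include hR' hx₀ h1 h2 in
theorem cprime_basis0 : (C + (R * corr B ℓ₁ * Rinv - corr B ℓ₁)) (B 0) = 0 := by
  have hRl : R ℓ₁ = x₀ • ℓ₁ - x₀ • C (B 0) := by
    rw [h1, map_smul] at h2
    rw [← h2]; abel
  have e0 : B.coord 0 (x₀⁻¹ • B 0) = x₀⁻¹ := by
    rw [map_smul, coord0_self, smul_eq_mul, mul_one]
  have e1 : (R * corr B ℓ₁ * Rinv) (B 0) = ℓ₁ - C (B 0) := by
    rw [Module.End.mul_apply, Module.End.mul_apply, inv_basis0 B R Rinv hR' x₀ h1 hx₀,
      corr_apply, e0, map_smul, hRl, smul_sub, smul_smul, smul_smul, inv_mul_cancel₀ hx₀,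
      one_smul, one_smul]
  have e2 : corr B ℓ₁ (B 0) = ℓ₁ := by rw [corr_apply, coord0_self, one_smul]
  rw [LinearMap.add_apply, LinearMap.sub_apply, e1, e2]
  abel

include hR h1 h2 h3 in
theorem cprime_mem (u : V) : ∃ t : k, (C + (R * corr B ℓ₁ * Rinv - corr B ℓ₁)) u = t • B 0 := by
  obtain ⟨s, t, hs, ht⟩ := h3 (Rinv u)
  rw [apply_inv_apply' R Rinv hR] at hs ht
  obtain ⟨s'', t'', hs'', ht''⟩ := h3 (B 0)
  have hs2 : s'' = x₀ - z₀ := by
    rw [h1, ← sub_smul] at hs''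
    exact (smul_basis0_inj B hs'').symm
  have hRl : R ℓ₁ = z₀ • ℓ₁ - t'' • B 0 := by
    have : R ℓ₁ = x₀ • ℓ₁ - C (R (B 0)) := by rw [← h2]; abel
    rw [this, ht'', hs2, sub_smul]; abel
  have hf : B.coord 0 u - z₀ * B.coord 0 (Rinv u) = s := by
    have := congrArg (B.coord 0) hs
    rw [map_sub, map_smul, map_smul, coord0_self, smul_eq_mul, smul_eq_mul, mul_one] at this
    exact this
  refine ⟨t - B.coord 0 (Rinv u) * t'', ?_⟩
  rw [LinearMap.add_apply, LinearMap.sub_apply, Module.End.mul_apply, Module.End.mul_apply,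
    corr_apply, corr_apply, map_smul, hRl, ht, ← hf]
  module

end cprime

section traces

variable [Module.Finite k V]

theorem trace_nil0 : LinearMap.trace k V (nil0 B) = 0 := by
  rw [nil0, LinearMap.trace_smulRight, coord1_self0]

theorem trace_proj0 : LinearMap.trace k V (proj0 B) = 1 := by
  rw [proj0, LinearMap.trace_smulRight, coord0_self]

omit [Module.Finite k V] in
theorem finrank_eq_two_of_basis (B' : Module.Basis (Fin 2) k V) : Module.finrank k V = 2 := by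
  rw [Module.finrank_eq_card_basis B', Fintype.card_fin]

omit [Module.Finite k V] in
theorem trace_conj_sub (R Rinv m : Module.End k V) (hR' : Rinv * R = 1) :
    LinearMap.trace k V (R * m * Rinv - m) = 0 := by
  rw [map_sub, LinearMap.trace_mul_comm, ← mul_assoc, hR', one_mul, sub_self]

end traces

end Fermat.Agent.S56.H656

end

/-!
# S56 / LOC-SO (helper656): cocycle calculus on `D_P` relative to the ordinary line

* `IsSOLine`, `IsSOData`: the data produced by `locSO_struct`; uniqueness of the line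
  (`IsSOLine.unique`, uses that inertia at `p` acts non-trivially on `μ_p`).
* `isAdCocycle_cob`, `IsAdCocycle.add`: coboundaries and sums are cocycles of finite level.
* `kappa_props`: an `ad⁰`-cocycle with values in `Hom(V/L, L)` on `D_P` is `κ • n₀` with `κ` an
  `ω`-twisted `k`-valued cocycle on `D_P` of (global) finite level.
-/

set_option autoImplicit false

open IsLocalRing

noncomputable section

namespace Fermat.Agent.S56.H656

open Fermat.Agent.S56 Fermat.Agent.S56.H716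

section line

variable {k : Type} [Field k] (ρbar : ResidualGaloisRep k) (p : ℕ) (P : ValuationSubring Qb)

/-- The `c`-independent part of the strict-ordinary data: `ℓ₀` spans a `D_P`-stable line on
which `σ` acts by `ω(σ) z₀(σ)`, `z₀(σ) = ±1` is the action on the quotient, inertia acts trivially
on the quotient. -/
def IsSOLine (ℓ₀ : ρbar.V) : Prop :=
  ℓ₀ ≠ 0 ∧ ∀ σ ∈ P.decompositionSubgroup ℚ, ∃ z₀ : k, z₀ * z₀ = 1 ∧
    (∀ a : ℕ, IsCycExp p σ a → ρbar.ρ σ ℓ₀ = ((a : k) * z₀) • ℓ₀) ∧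
    (∀ v : ρbar.V, ∃ s : k, ρbar.ρ σ v - z₀ • v = s • ℓ₀) ∧
    (σ ∈ P.inertiaSubgroupIn ℚ → z₀ = 1)

/-- The full strict-ordinary data of a tangent cocycle `c` (output of `locSO_struct`). -/
def IsSOData (c : GQ → Module.End k ρbar.V) (ℓ₀ ℓ₁ : ρbar.V) : Prop :=
  ℓ₀ ≠ 0 ∧ ∀ σ ∈ P.decompositionSubgroup ℚ, ∃ z₀ : k, z₀ * z₀ = 1 ∧
    (∀ a : ℕ, IsCycExp p σ a →
      ρbar.ρ σ ℓ₀ = ((a : k) * z₀) • ℓ₀ ∧
      ρbar.ρ σ ℓ₁ + c σ (ρbar.ρ σ ℓ₀) = ((a : k) * z₀) • ℓ₁) ∧
    (∀ v : ρbar.V, ∃ s t : k, ρbar.ρ σ v - z₀ • v = s • ℓ₀ ∧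
      c σ (ρbar.ρ σ v) = s • ℓ₁ + t • ℓ₀) ∧
    (σ ∈ P.inertiaSubgroupIn ℚ → z₀ = 1)

variable {ρbar p P}

theorem IsSOData.isSOLine {c : GQ → Module.End k ρbar.V} {ℓ₀ ℓ₁ : ρbar.V}
    (h : IsSOData ρbar p P c ℓ₀ ℓ₁) : IsSOLine ρbar p P ℓ₀ := by
  refine ⟨h.1, fun σ hσ => ?_⟩
  obtain ⟨z₀, hzz, ha, hv, hI⟩ := h.2 σ hσ
  refine ⟨z₀, hzz, fun a hcyc => (ha a hcyc).1, fun v => ?_, hI⟩
  obtain ⟨s, t, hs, -⟩ := hv v
  exact ⟨s, hs⟩

theorem IsSOData.smul {c : GQ → Module.End k ρbar.V} {ℓ₀ ℓ₁ : ρbar.V}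
    (h : IsSOData ρbar p P c ℓ₀ ℓ₁) {r : k} (hr : r ≠ 0) :
    IsSOData ρbar p P c (r • ℓ₀) (r • ℓ₁) := by
  refine ⟨smul_ne_zero hr h.1, fun σ hσ => ?_⟩
  obtain ⟨z₀, hzz, ha, hv, hI⟩ := h.2 σ hσ
  refine ⟨z₀, hzz, fun a hcyc => ?_, fun v => ?_, hI⟩
  · obtain ⟨h1, h2⟩ := ha a hcyc
    constructor
    · rw [map_smul, h1, smul_comm]
    · rw [map_smul, map_smul, map_smul, ← smul_add, h2, smul_comm]
  · obtain ⟨s, t, hs, ht⟩ := hv v
    refine ⟨s * r⁻¹, t * r⁻¹, ?_, ?_⟩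
    · rw [hs, smul_smul, mul_assoc, inv_mul_cancel₀ hr, mul_one]
    · rw [ht, smul_smul, smul_smul, mul_assoc, mul_assoc, inv_mul_cancel₀ hr, mul_one, mul_one]

/-- The ordinary line is unique (`p` odd). -/
theorem IsSOLine.unique [CharP k p] (hp : p.Prime) (hp2 : p ≠ 2) (hP : P.LiesOverPrime p)
    {ℓ₀ ℓ₀' : ρbar.V} (h : IsSOLine ρbar p P ℓ₀) (h' : IsSOLine ρbar p P ℓ₀') :
    ∃ r : k, r ≠ 0 ∧ ℓ₀' = r • ℓ₀ := by
  obtain ⟨σ, hσI, a, ha, ha1⟩ := exists_inertia_isCycExp_ne_one hp hp2 k P hP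
  have hσD := mem_decomposition_of_mem_inertia hσI
  obtain ⟨z₀, -, -, hv, hI⟩ := h.2 σ hσD
  obtain ⟨z₀', -, hcyc', -, hI'⟩ := h'.2 σ hσD
  have hz : z₀ = 1 := hI hσI
  have hz' : z₀' = 1 := hI' hσI
  obtain ⟨s, hs⟩ := hv ℓ₀'
  rw [hcyc' a ha, hz, hz', mul_one, one_smul] at hs
  have ha1' : (a : k) - 1 ≠ 0 := sub_ne_zero.mpr ha1
  have hs' : ((a : k) - 1) • ℓ₀' = s • ℓ₀ := by rw [sub_smul, one_smul]; exact hs
  have hℓ : ℓ₀' = (((a : k) - 1)⁻¹ * s) • ℓ₀ := by
    rw [mul_smul, ← hs', smul_smul, inv_mul_cancel₀ ha1', one_smul]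
  refine ⟨((a : k) - 1)⁻¹ * s, ?_, hℓ⟩
  intro h0
  rw [h0, zero_smul] at hℓ
  exact h'.1 hℓ

end line

section cocycles

variable {k : Type} [Field k] (ρbar : ResidualGaloisRep k)

theorem rho_mul_inv' (σ : GQ) : ρbar.ρ σ * ρbar.ρ σ⁻¹ = 1 := by
  rw [← map_mul, mul_inv_cancel, map_one]

theorem rho_inv_mul' (σ : GQ) : ρbar.ρ σ⁻¹ * ρbar.ρ σ = 1 := by
  rw [← map_mul, inv_mul_cancel, map_one]

/-- Coboundaries are cocycles of finite level. -/
theorem isAdCocycle_cob (m : Module.End k ρbar.V) :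
    IsAdCocycle ρbar (fun σ => ρbar.ρ σ * m * ρbar.ρ σ⁻¹ - m) where
  trace_eq_zero σ := trace_conj_sub _ _ m (rho_inv_mul' ρbar σ)
  map_mul σ τ := by
    simp only [map_mul, mul_inv_rev, mul_sub, sub_mul, mul_assoc]
    abel
  level := by
    obtain ⟨L, hL, h1⟩ := ρbar.factorsThroughFiniteLevel
    refine ⟨L, hL, fun σ τ hτ => ?_⟩
    have hτ1 : ρbar.ρ τ = 1 := h1 τ hτ
    have hτi : ρbar.ρ τ⁻¹ = 1 := by
      apply h1
      intro x hx
      have := hτ x hx
      calc τ⁻¹ x = τ⁻¹ (τ x) := by rw [this]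
        _ = x := by
          show (τ⁻¹ * τ) x = x
          rw [inv_mul_cancel]; rfl
    show ρbar.ρ (σ * τ) * m * ρbar.ρ (σ * τ)⁻¹ - m = ρbar.ρ σ * m * ρbar.ρ σ⁻¹ - m
    rw [mul_inv_rev, map_mul, map_mul, hτ1, hτi, mul_one, one_mul]

variable {ρbar}

theorem IsAdCocycle.add' {c₁ c₂ : GQ → Module.End k ρbar.V} (h₁ : IsAdCocycle ρbar c₁)
    (h₂ : IsAdCocycle ρbar c₂) : IsAdCocycle ρbar (fun σ => c₁ σ + c₂ σ) where
  trace_eq_zero σ := by rw [map_add, h₁.trace_eq_zero, h₂.trace_eq_zero, add_zero]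
  map_mul σ τ := by
    rw [h₁.map_mul, h₂.map_mul, mul_add, add_mul]
    abel
  level := by
    obtain ⟨L₁, hL₁, h1⟩ := h₁.level
    obtain ⟨L₂, hL₂, h2⟩ := h₂.level
    have := hL₁
    have := hL₂
    refine ⟨L₁ ⊔ L₂, IntermediateField.finiteDimensional_sup L₁ L₂, fun σ τ hτ => ?_⟩
    rw [h1 σ τ fun x hx => hτ x ((le_sup_left : L₁ ≤ L₁ ⊔ L₂) hx),
      h2 σ τ fun x hx => hτ x ((le_sup_right : L₂ ≤ L₁ ⊔ L₂) hx)]

end cocycles

section kappa

variable {k : Type} [Field k] {ρbar : ResidualGaloisRep k} {p : ℕ} {P : ValuationSubring Qb}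
  (B : Module.Basis (Fin 2) k ρbar.V)

/-- On `D_P`, conjugation by `ρ̄(σ)` multiplies `n₀` by the cyclotomic character. -/
theorem conj_nil0_of_line (hline : IsSOLine ρbar p P (B 0)) {σ : GQ}
    (hσ : σ ∈ P.decompositionSubgroup ℚ) {a : ℕ} (ha : IsCycExp p σ a) :
    ρbar.ρ σ * nil0 B * ρbar.ρ σ⁻¹ = (a : k) • nil0 B := by
  obtain ⟨z₀, hzz, hcyc, hv, -⟩ := hline.2 σ hσ
  rw [conj_nil0 B (ρbar.ρ σ) (ρbar.ρ σ⁻¹) (rho_mul_inv' ρbar σ) ((a : k) * z₀) z₀ hzz
    (hcyc a ha) hv, mul_assoc, hzz, mul_one]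

/-- An `ad⁰`-cocycle with values in `Hom(V/L, L)` on `D_P` is `κ • n₀`, `κ` an `ω`-twisted cocycle
on `D_P` of global finite level. -/
theorem kappa_props (hline : IsSOLine ρbar p P (B 0)) {c' : GQ → Module.End k ρbar.V}
    (hc' : IsAdCocycle ρbar c')
    (hval : ∀ σ ∈ P.decompositionSubgroup ℚ, c' σ (B 0) = 0 ∧ ∀ u, ∃ t : k, c' σ u = t • B 0) :
    (∀ σ ∈ P.decompositionSubgroup ℚ, c' σ = B.coord 0 (c' σ (B 1)) • nil0 B) ∧
    (∀ σ ∈ P.decompositionSubgroup ℚ, ∀ τ ∈ P.decompositionSubgroup ℚ, ∀ a : ℕ,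
      IsCycExp p σ a →
        B.coord 0 (c' (σ * τ) (B 1)) = B.coord 0 (c' σ (B 1)) + (a : k) * B.coord 0 (c' τ (B 1))) ∧
    (∃ L : IntermediateField ℚ Qb, FiniteDimensional ℚ L ∧
      ∀ σ τ : GQ, (∀ x ∈ L, τ x = x) →
        B.coord 0 (c' (σ * τ) (B 1)) = B.coord 0 (c' σ (B 1))) := by
  have h1 : ∀ σ ∈ P.decompositionSubgroup ℚ, c' σ = B.coord 0 (c' σ (B 1)) • nil0 B :=
    fun σ hσ => eq_smul_nil0 B (c' σ) (hval σ hσ).1 (hval σ hσ).2
  refine ⟨h1, ?_, ?_⟩
  · intro σ hσ τ hτ a ha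
    have e1 : c' (σ * τ) = c' σ + ρbar.ρ σ * c' τ * ρbar.ρ σ⁻¹ := hc'.map_mul σ τ
    have e2 : ρbar.ρ σ * c' τ * ρbar.ρ σ⁻¹ =
        (B.coord 0 (c' τ (B 1)) * (a : k)) • nil0 B := by
      conv_lhs => rw [h1 τ hτ]
      rw [mul_smul_comm, smul_mul_assoc, conj_nil0_of_line B hline hσ ha, smul_smul]
    have e3 : c' (σ * τ) =
        (B.coord 0 (c' σ (B 1)) + (a : k) * B.coord 0 (c' τ (B 1))) • nil0 B := by
      rw [e1, e2, add_smul, mul_comm]
      congr 1
      exact h1 σ hσ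
    rw [e3, coord0_smul_nil0_basis1]
  · obtain ⟨L, hL, h⟩ := hc'.level
    exact ⟨L, hL, fun σ τ hτ => by rw [h σ τ hτ]⟩

end kappa

end Fermat.Agent.S56.H656

end

/-!
# S56 / LOC-SO (helper656): the local tangent bound at `p`, strict-ordinary condition

`locSO_of_kummerP : KummerPStatement → LocSOStatement`.

Every strict-ordinary tangent cocycle is, on `D_P`, cohomologous to `κ • n₀` with `κ` an
`ω`-twisted cocycle (`LocSOStruct`, `LocSOCoc`); by KUMMER-P these span a space of dimension `≤ 2`.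
If `H⁰(D_P, ad⁰ρ̄) = 0` the coboundary of the projector onto the ordinary line is a nonzero class
of this type which dies in `ad⁰`, so the span has dimension `≤ 1`.
-/

set_option autoImplicit false

open IsLocalRing

noncomputable section

namespace Fermat.Agent.S56.H656

open Fermat.Agent.S56 Fermat.Agent.S56.H716

section aux

variable {k : Type} [Field k] {W : Type} [AddCommGroup W] [Module k W]

theorem finrank_span_pair_le (t₁ t₂ : W) :
    Module.finrank k (Submodule.span k ({t₁, t₂} : Set W)) ≤ 2 := by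
  classical
  have h := finrank_span_finset_le_card (R := k) ({t₁, t₂} : Finset W)
  have h2 : ({t₁, t₂} : Finset W).card ≤ 2 := Finset.card_le_two
  have : ((({t₁, t₂} : Finset W) : Set W)) = ({t₁, t₂} : Set W) := by simp
  rw [this] at h
  exact h.trans h2

theorem finrank_span_single_le (t₁ : W) :
    Module.finrank k (Submodule.span k ({t₁} : Set W)) ≤ 1 := by
  classical
  have h := finrank_span_finset_le_card (R := k) ({t₁} : Finset W)
  have h2 : ({t₁} : Finset W).card ≤ 1 := by simp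
  have : ((({t₁} : Finset W) : Set W)) = ({t₁} : Set W) := by simp
  rw [this] at h
  exact h.trans h2

end aux

section main

variable {k : Type} [Field k] {ρbar : ResidualGaloisRep k} {p : ℕ} {P : ValuationSubring Qb}
  (B : Module.Basis (Fin 2) k ρbar.V)

/-- The coboundary of `m' • n₀` on `D_P`. -/
theorem cob_smul_nil0 (hline : IsSOLine ρbar p P (B 0)) {σ : GQ}
    (hσ : σ ∈ P.decompositionSubgroup ℚ) {a : ℕ} (ha : IsCycExp p σ a) (m' : k) :
    ρbar.ρ σ * (m' • nil0 B) * ρbar.ρ σ⁻¹ - m' • nil0 B = (((a : k) - 1) * m') • nil0 B := by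
  rw [mul_smul_comm, smul_mul_assoc, conj_nil0_of_line B hline hσ ha, smul_smul, ← sub_smul]
  congr 1
  ring

/-- Values of the corrected cocycle `c + ∂(corr)` on `D_P`. -/
theorem corrected_values [CharP k p] (hp : p.Prime) {c : GQ → Module.End k ρbar.V} {ℓ₁ : ρbar.V}
    (hdata : IsSOData ρbar p P c (B 0) ℓ₁) {σ : GQ} (hσ : σ ∈ P.decompositionSubgroup ℚ) :
    (c σ + (ρbar.ρ σ * corr B ℓ₁ * ρbar.ρ σ⁻¹ - corr B ℓ₁)) (B 0) = 0 ∧
      ∀ u, ∃ t : k, (c σ + (ρbar.ρ σ * corr B ℓ₁ * ρbar.ρ σ⁻¹ - corr B ℓ₁)) u = t • B 0 := by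
  obtain ⟨z₀, hzz, hcyc, hv, -⟩ := hdata.2 σ hσ
  obtain ⟨a, ha⟩ := Fermat.Agent.S56.H966.exists_isCycExp p hp.ne_zero σ
  have ha0 : (a : k) ≠ 0 := isCycExp_cast_ne_zero hp ha
  have hz0 : z₀ ≠ 0 := by
    intro h
    rw [h, mul_zero] at hzz
    exact zero_ne_one hzz
  have hx0 : (a : k) * z₀ ≠ 0 := mul_ne_zero ha0 hz0
  exact ⟨cprime_basis0 B (ρbar.ρ σ) (ρbar.ρ σ⁻¹) (c σ) (rho_inv_mul' ρbar σ) ℓ₁ _ hx0
      (hcyc a ha).1 (hcyc a ha).2,
    cprime_mem B (ρbar.ρ σ) (ρbar.ρ σ⁻¹) (c σ) (rho_mul_inv' ρbar σ) ℓ₁ _ z₀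
      (hcyc a ha).1 (hcyc a ha).2 hv⟩

/-- Values of the coboundary of the projector on `D_P`. -/
theorem proj_values [CharP k p] (hp : p.Prime) (hline : IsSOLine ρbar p P (B 0)) {σ : GQ}
    (hσ : σ ∈ P.decompositionSubgroup ℚ) :
    (ρbar.ρ σ * proj0 B * ρbar.ρ σ⁻¹ - proj0 B) (B 0) = 0 ∧
      ∀ u, ∃ t : k, (ρbar.ρ σ * proj0 B * ρbar.ρ σ⁻¹ - proj0 B) u = t • B 0 := by
  obtain ⟨z₀, hzz, hcyc, -, -⟩ := hline.2 σ hσ
  obtain ⟨a, ha⟩ := Fermat.Agent.S56.H966.exists_isCycExp p hp.ne_zero σ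
  have ha0 : (a : k) ≠ 0 := isCycExp_cast_ne_zero hp ha
  have hz0 : z₀ ≠ 0 := by
    intro h
    rw [h, mul_zero] at hzz
    exact zero_ne_one hzz
  have hx0 : (a : k) * z₀ ≠ 0 := mul_ne_zero ha0 hz0
  exact ⟨conj_proj0_basis0 B (ρbar.ρ σ) (ρbar.ρ σ⁻¹) (rho_inv_mul' ρbar σ) _ (hcyc a ha) hx0,
    conj_proj0_mem B (ρbar.ρ σ) (ρbar.ρ σ⁻¹) _ (hcyc a ha)⟩

/-- **Key step**: with KUMMER-P functions `κ₁ κ₂`, every cocycle with strict-ordinary data
relative to the line `B 0` is on `D_P` cohomologous to `(x κ₁ + y κ₂) • n₀`. -/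
theorem key_of_data [CharP k p] (hp : p.Prime) {κ₁ κ₂ : GQ → k}
    (hκ : ∀ κ : GQ → k,
      (∀ σ ∈ P.decompositionSubgroup ℚ, ∀ τ ∈ P.decompositionSubgroup ℚ, ∀ a : ℕ,
        IsCycExp p σ a → κ (σ * τ) = κ σ + (a : k) * κ τ) →
      (∃ L : IntermediateField ℚ Qb, FiniteDimensional ℚ L ∧
        ∀ σ τ : GQ, (∀ x ∈ L, τ x = x) → κ (σ * τ) = κ σ) →
      ∃ x y m : k, ∀ σ ∈ P.decompositionSubgroup ℚ, ∀ a : ℕ, IsCycExp p σ a →
        κ σ = x * κ₁ σ + y * κ₂ σ + ((a : k) - 1) * m)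
    {c : GQ → Module.End k ρbar.V} (hc : IsAdCocycle ρbar c) {ℓ₁ : ρbar.V}
    (hdata : IsSOData ρbar p P c (B 0) ℓ₁) :
    ∃ (x y : k) (M : Module.End k ρbar.V), ∀ σ ∈ P.decompositionSubgroup ℚ,
      c σ - (x * κ₁ σ + y * κ₂ σ) • nil0 B = ρbar.ρ σ * M * ρbar.ρ σ⁻¹ - M := by
  have hline := hdata.isSOLine
  have hc' : IsAdCocycle ρbar
      (fun σ => c σ + (ρbar.ρ σ * corr B ℓ₁ * ρbar.ρ σ⁻¹ - corr B ℓ₁)) :=
    IsAdCocycle.add' hc (isAdCocycle_cob ρbar (corr B ℓ₁))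
  obtain ⟨h1, h2, h3⟩ := kappa_props B hline hc' (fun σ hσ => corrected_values B hp hdata hσ)
  obtain ⟨x, y, m', hxy⟩ := hκ
    (fun σ => B.coord 0 ((c σ + (ρbar.ρ σ * corr B ℓ₁ * ρbar.ρ σ⁻¹ - corr B ℓ₁)) (B 1))) h2 h3
  refine ⟨x, y, m' • nil0 B - corr B ℓ₁, fun σ hσ => ?_⟩
  obtain ⟨a, ha⟩ := Fermat.Agent.S56.H966.exists_isCycExp p hp.ne_zero σ
  have e1 := h1 σ hσ
  have e2 := hxy σ hσ a ha
  beta_reduce at e1 e2
  rw [e2] at e1
  have e3 := cob_smul_nil0 B hline hσ ha m'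
  have e4 : ρbar.ρ σ * (m' • nil0 B - corr B ℓ₁) * ρbar.ρ σ⁻¹ - (m' • nil0 B - corr B ℓ₁) =
      (ρbar.ρ σ * (m' • nil0 B) * ρbar.ρ σ⁻¹ - m' • nil0 B) -
        (ρbar.ρ σ * corr B ℓ₁ * ρbar.ρ σ⁻¹ - corr B ℓ₁) := by
    rw [mul_sub, sub_mul]; abel
  rw [e4, e3]
  have e5 : c σ = (x * κ₁ σ + y * κ₂ σ + ((a : k) - 1) * m') • nil0 B -
      (ρbar.ρ σ * corr B ℓ₁ * ρbar.ρ σ⁻¹ - corr B ℓ₁) := by
    rw [← e1]; abel
  rw [e5, add_smul]
  abel

/-- The cocycle of the projector, in KUMMER-P coordinates. -/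
theorem key_of_proj [CharP k p] (hp : p.Prime) {κ₁ κ₂ : GQ → k}
    (hκ : ∀ κ : GQ → k,
      (∀ σ ∈ P.decompositionSubgroup ℚ, ∀ τ ∈ P.decompositionSubgroup ℚ, ∀ a : ℕ,
        IsCycExp p σ a → κ (σ * τ) = κ σ + (a : k) * κ τ) →
      (∃ L : IntermediateField ℚ Qb, FiniteDimensional ℚ L ∧
        ∀ σ τ : GQ, (∀ x ∈ L, τ x = x) → κ (σ * τ) = κ σ) →
      ∃ x y m : k, ∀ σ ∈ P.decompositionSubgroup ℚ, ∀ a : ℕ, IsCycExp p σ a →
        κ σ = x * κ₁ σ + y * κ₂ σ + ((a : k) - 1) * m)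
    (hline : IsSOLine ρbar p P (B 0)) :
    ∃ (x y m : k), ∀ σ ∈ P.decompositionSubgroup ℚ,
      (x * κ₁ σ + y * κ₂ σ) • nil0 B =
        ρbar.ρ σ * (proj0 B - m • nil0 B) * ρbar.ρ σ⁻¹ - (proj0 B - m • nil0 B) := by
  have hc' : IsAdCocycle ρbar (fun σ => ρbar.ρ σ * proj0 B * ρbar.ρ σ⁻¹ - proj0 B) :=
    isAdCocycle_cob ρbar (proj0 B)
  obtain ⟨h1, h2, h3⟩ := kappa_props B hline hc' (fun σ hσ => proj_values B hp hline hσ)
  obtain ⟨x, y, m', hxy⟩ := hκ
    (fun σ => B.coord 0 ((ρbar.ρ σ * proj0 B * ρbar.ρ σ⁻¹ - proj0 B) (B 1))) h2 h3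
  refine ⟨x, y, m', fun σ hσ => ?_⟩
  obtain ⟨a, ha⟩ := Fermat.Agent.S56.H966.exists_isCycExp p hp.ne_zero σ
  have e1 := h1 σ hσ
  have e2 := hxy σ hσ a ha
  beta_reduce at e1 e2
  rw [e2] at e1
  have e3 := cob_smul_nil0 B hline hσ ha m'
  have e4 : ρbar.ρ σ * (proj0 B - m' • nil0 B) * ρbar.ρ σ⁻¹ - (proj0 B - m' • nil0 B) =
      (ρbar.ρ σ * proj0 B * ρbar.ρ σ⁻¹ - proj0 B) -
        (ρbar.ρ σ * (m' • nil0 B) * ρbar.ρ σ⁻¹ - m' • nil0 B) := by
    rw [mul_sub, sub_mul]; abel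
  rw [e4, e3, e1]
  module

end main

section final

variable {k : Type} [Field k]

theorem exists_basis_zero_eq {V : Type} [AddCommGroup V] [Module k V]
    (h2 : Module.finrank k V = 2) {ℓ₀ : V} (h0 : ℓ₀ ≠ 0) :
    ∃ B : Module.Basis (Fin 2) k V, B 0 = ℓ₀ := by
  obtain ⟨y, hy⟩ := exists_linearIndependent_pair_of_one_lt_finrank (R := k) (by omega) h0
  refine ⟨basisOfLinearIndependentOfCardEqFinrank hy (by rw [Fintype.card_fin, h2]), ?_⟩
  rw [coe_basisOfLinearIndependentOfCardEqFinrank]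
  rfl

theorem exists_complement_pair {x_d y_d : k} (h : ¬ (x_d = 0 ∧ y_d = 0)) :
    ∃ x_t y_t : k, ∀ x y : k, ∃ α β : k, x = α * x_d + β * x_t ∧ y = α * y_d + β * y_t := by
  by_cases hx : x_d = 0
  · have hy : y_d ≠ 0 := fun hy => h ⟨hx, hy⟩
    refine ⟨1, 0, fun x y => ⟨y / y_d, x, ?_, ?_⟩⟩
    · rw [hx]; ring
    · field_simp; ring
  · refine ⟨0, 1, fun x y => ⟨x / x_d, y - x / x_d * y_d, ?_, ?_⟩⟩
    · field_simp; ring
    · ring

theorem conj_add_smul {V' : Type} [AddCommGroup V'] [Module k V']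
    (R Rinv M N : Module.End k V') (α : k) :
    R * (M + α • N) * Rinv - (M + α • N) = (R * M * Rinv - M) + α • (R * N * Rinv - N) := by
  rw [mul_add, add_mul, mul_smul_comm, smul_mul_assoc, smul_sub]
  abel

/-- **LOC-SO over a field**: the local tangent bound at `p` for strictly ordinary lifts with
cyclotomic determinant, defect `1`. -/
theorem localBoundAt_so {p : ℕ} [CharP k p] (hp : p.Prime) (hp2 : p ≠ 2)
    (ρbar : ResidualGaloisRep k) (P : ValuationSubring Qb) (hP : P.LiesOverPrime p) :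
    LocalBoundAt ρbar P (fun ρ' => ρ'.DetIsCyclotomic p ∧ ρ'.IsStrictOrdinaryAt p) 1 := by
  classical
  haveI : Fact p.Prime := ⟨hp⟩
  by_cases hex : ∃ (c : GQ → Module.End k ρbar.V) (ρ' : GaloisRepAdic (DualNumber k)),
      IsLiftOf ρbar c ρ' ∧ ρ'.DetIsCyclotomic p ∧ ρ'.IsStrictOrdinaryAt p
  swap
  · refine ⟨⊥, inferInstance, ?_, fun c _ h => ?_⟩
    · rw [finrank_bot]; exact Nat.zero_le _
    · obtain ⟨ρ', hl, hd, hs⟩ := h
      exact (hex ⟨c, ρ', hl, hd, hs⟩).elim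
  obtain ⟨c₀, ρ₀, hl₀, hd₀, hs₀⟩ := hex
  obtain ⟨ℓ₀, ℓ₁, hdata₀⟩ := locSO_struct ρbar p hp hp2 c₀ ρ₀ hl₀ hd₀ hs₀ P hP
  have hdata₀' : IsSOData ρbar p P c₀ ℓ₀ ℓ₁ := hdata₀
  obtain ⟨B, hB0⟩ := exists_basis_zero_eq ρbar.finrank_eq hdata₀'.1
  have hline : IsSOLine ρbar p P (B 0) := by rw [hB0]; exact hdata₀'.isSOLine
  obtain ⟨κ₁, κ₂, -, -, hκ'⟩ := Fermat.Agent.S56.H734.kummerP p hp2 k P hP
  have hκ : ∀ κ : GQ → k,
      (∀ σ ∈ P.decompositionSubgroup ℚ, ∀ τ ∈ P.decompositionSubgroup ℚ, ∀ a : ℕ,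
        IsCycExp p σ a → κ (σ * τ) = κ σ + (a : k) * κ τ) →
      (∃ L : IntermediateField ℚ Qb, FiniteDimensional ℚ L ∧
        ∀ σ τ : GQ, (∀ x ∈ L, τ x = x) → κ (σ * τ) = κ σ) →
      ∃ x y m : k, ∀ σ ∈ P.decompositionSubgroup ℚ, ∀ a : ℕ, IsCycExp p σ a →
        κ σ = x * κ₁ σ + y * κ₂ σ + ((a : k) - 1) * m := by
    rintro κ hc ⟨L, hL, hl⟩
    exact hκ' κ hc ⟨L, hL, fun σ _ τ _ hτ => hl σ τ hτ⟩
  -- every admissible cocycle is cohomologous on `D_P` to `(x κ₁ + y κ₂) • n₀`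
  have key : ∀ c : GQ → Module.End k ρbar.V, IsAdCocycle ρbar c →
      (∃ ρ' : GaloisRepAdic (DualNumber k), IsLiftOf ρbar c ρ' ∧
        ρ'.DetIsCyclotomic p ∧ ρ'.IsStrictOrdinaryAt p) →
      ∃ (x y : k) (M : Module.End k ρbar.V), ∀ σ ∈ P.decompositionSubgroup ℚ,
        c σ - (x * κ₁ σ + y * κ₂ σ) • nil0 B = ρbar.ρ σ * M * ρbar.ρ σ⁻¹ - M := by
    rintro c hc ⟨ρ', hl, hd, hs⟩
    obtain ⟨ℓ₀', ℓ₁', hdata⟩ := locSO_struct ρbar p hp hp2 c ρ' hl hd hs P hP
    have hdata' : IsSOData ρbar p P c ℓ₀' ℓ₁' := hdata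
    obtain ⟨r, hr, hrl⟩ := IsSOLine.unique hp hp2 hP hline hdata'.isSOLine
    have h2 := hdata'.smul (inv_ne_zero hr)
    have e : r⁻¹ • ℓ₀' = B 0 := by rw [hrl, smul_smul, inv_mul_cancel₀ hr, one_smul]
    rw [e] at h2
    exact key_of_data B hp hκ hc h2
  set t₁ : GQ → Module.End k ρbar.V := fun σ => κ₁ σ • nil0 B with ht₁
  set t₂ : GQ → Module.End k ρbar.V := fun σ => κ₂ σ • nil0 B with ht₂
  by_cases hinv : adInv ρbar (P.decompositionSubgroup ℚ) = ⊥
  · -- `H⁰ = 0`: the projector cocycle is a non-trivial relation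
    obtain ⟨x_d, y_d, m_d, hd⟩ := key_of_proj B hp hκ hline
    have h2k : (2 : k) ≠ 0 := by
      intro h
      have h' : ((2 : ℕ) : k) = 0 := by exact_mod_cast h
      have hdvd : p ∣ 2 := (CharP.cast_eq_zero_iff k p 2).mp h'
      exact hp2 ((Nat.prime_dvd_prime_iff_eq hp Nat.prime_two).mp hdvd)
    have hne : ¬ (x_d = 0 ∧ y_d = 0) := by
      rintro ⟨hx, hy⟩
      have hmem : proj0 B - m_d • nil0 B - (2 : k)⁻¹ • (1 : Module.End k ρbar.V) ∈
          adInv ρbar (P.decompositionSubgroup ℚ) := by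
        refine ⟨?_, fun σ hσ => ?_⟩
        · rw [map_sub, map_sub, map_smul, map_smul, trace_proj0, trace_nil0,
            LinearMap.trace_one, ρbar.finrank_eq]
          simp only [smul_eq_mul, mul_zero, sub_zero, Nat.cast_ofNat]
          rw [inv_mul_cancel₀ h2k, sub_self]
        · have h := hd σ hσ
          rw [hx, hy, zero_mul, zero_mul, add_zero, zero_smul] at h
          have h' : ρbar.ρ σ * (proj0 B - m_d • nil0 B) * ρbar.ρ σ⁻¹ =
              proj0 B - m_d • nil0 B := (sub_eq_zero.mp h.symm)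
          rw [mul_sub, sub_mul, h', mul_smul_comm, smul_mul_assoc, mul_one,
            rho_mul_inv' ρbar σ]
      rw [hinv, Submodule.mem_bot] at hmem
      have h0 := congrArg (fun F : Module.End k ρbar.V => B.coord 0 (F (B 0))) hmem
      simp only [LinearMap.sub_apply, LinearMap.smul_apply, proj0_apply, nil0_apply,
        Module.End.one_apply, map_sub, map_smul, coord0_self, coord1_self0, smul_eq_mul,
        mul_one, zero_smul, smul_zero, sub_zero, one_smul, LinearMap.zero_apply,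
        map_zero] at h0
      have : (2 : k)⁻¹ = 1 := (sub_eq_zero.mp h0).symm
      have h21 : (2 : k) = 1 := by
        have := congrArg (fun t => (2 : k) * t) this
        simp only [mul_inv_cancel₀ h2k, mul_one] at this
        exact this.symm
      have h10 : (1 : k) = 0 := by
        have : (2 : k) - 1 = 0 := by rw [h21, sub_self]
        norm_num at this
      exact one_ne_zero h10
    obtain ⟨x_t, y_t, hcomp⟩ := exists_complement_pair hne
    refine ⟨Submodule.span k {x_t • t₁ + y_t • t₂},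
      Module.Finite.span_of_finite k (Set.toFinite _), ?_, fun c hc hex' => ?_⟩
    · rw [hinv, finrank_bot, zero_add]
      exact finrank_span_single_le _
    · obtain ⟨x, y, M, hM⟩ := key c hc hex'
      obtain ⟨α, β, hx, hy⟩ := hcomp x y
      refine ⟨β • (x_t • t₁ + y_t • t₂),
        Submodule.smul_mem _ _ (Submodule.subset_span (Set.mem_singleton _)),
        M + α • (proj0 B - m_d • nil0 B), fun σ hσ => ?_⟩
      rw [conj_add_smul, ← hM σ hσ, ← hd σ hσ]
      show c σ - β • (x_t • κ₁ σ • nil0 B + y_t • κ₂ σ • nil0 B) = _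
      rw [hx, hy]
      module
  · -- `H⁰ ≠ 0`: the Kummer bound suffices
    refine ⟨Submodule.span k {t₁, t₂}, Module.Finite.span_of_finite k (Set.toFinite _), ?_,
      fun c hc hex' => ?_⟩
    · have h1 : 1 ≤ Module.finrank k (adInv ρbar (P.decompositionSubgroup ℚ)) :=
        Submodule.one_le_finrank_iff.mpr hinv
      have h2 := finrank_span_pair_le (k := k) t₁ t₂
      omega
    · obtain ⟨x, y, M, hM⟩ := key c hc hex'
      refine ⟨x • t₁ + y • t₂, ?_, M, fun σ hσ => ?_⟩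
      · exact Submodule.add_mem _
          (Submodule.smul_mem _ _ (Submodule.subset_span (Set.mem_insert _ _)))
          (Submodule.smul_mem _ _ (Submodule.subset_span
            (Set.mem_insert_of_mem _ (Set.mem_singleton _))))
      · rw [← hM σ hσ]
        show c σ - (x • κ₁ σ • nil0 B + y • κ₂ σ • nil0 B) = _
        module

end final

/-- **LOC-SO** (frozen layer-2 leaf `LocOrdPStatement` of `H716/SBSpec.lean`). -/
theorem locOrdP : LocOrdPStatement := by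
  intro 𝒪 _ _ _ _ _ p ρbar S Smin hyp P hP
  have hpk : ((p : ℕ) : ResidueField 𝒪) = 0 := by
    have h := (IsLocalRing.residue_eq_zero_iff (p : 𝒪)).mpr hyp.hp𝒪
    rwa [map_natCast] at h
  haveI : CharP (ResidueField 𝒪) p := (CharP.charP_iff_prime_eq_zero hyp.hp).mpr hpk
  exact localBoundAt_so hyp.hp hyp.hp2 ρbar P hP

end Fermat.Agent.S56.H656

end
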