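import Fermat.Agent.S56.H656.LocOrdP
import Fermat.Agent.S56.H906.FlatOSpec
import Fermat.Agent.S56.FL.Top

/-!
# Row S56 — FLAT-O, assembly part S3 + (e) + (f) = COUNT (helper656)

`flatO_of : FlatOrdLineStatement → FlatUnitStatement → KumStatement → UnramHomStatement →
  FL.FlatOStatement`.

* `FlatOrdLineStatement` (what STRUCT S1 + S2 owes): a flat lift `ρ'` over `k[ε]` with cyclotomic
  determinant of a `ρ̄` which is reducible on `D_P` is ordinary at `P` in the Prelude's sense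
  (`GaloisRepAdic.IsOrdinaryAt`, at the place `P`): a `D_P`-stable line `L = k[ε] b₀` (`b` a basis)
  with trivial inertia action on `V/L`.
* (S3) `locFO_struct`: in the coordinates `ℓ₀ + ε ℓ₁` of a generator of `L`, the cocycle `c` is, after
  the coboundary of `corr`, upper triangular on `D_P` with unramified diagonal part.
* (e) `exists_unit_of_flat_line`: FU on the Hopf lattice of `ρ'` with `L` the line: every additive
  function of `σ w - w` is peu ramifié on `H = {σ ∈ I_P : σ ζ = ζ}`.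
* (f) COUNT: UNRHOM kills the diagonal part up to one class, KUM bounds the off-diagonal part,
  and the coboundary of the projector on the line removes one dimension when `H⁰(D_P, ad⁰) = 0`.

Nothing unproved in this file.
-/

set_option autoImplicit false

open IsLocalRing
open scoped TensorProduct

noncomputable section

namespace Fermat.Agent.S56.H656

open Fermat.Agent.S56 Fermat.Agent.S56.H716 Fermat.Agent.S19.H435

/-- (STRUCT, steps S1 + S2 of the FLAT-O plan) a flat lift with cyclotomic determinant of a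
residual representation which is reducible on `D_P` is ordinary at `P`. -/
def FlatOrdLineStatement : Prop :=
  ∀ (𝒪 : Type) [CommRing 𝒪] [IsDomain 𝒪] [IsDiscreteValuationRing 𝒪]
    [IsAdicComplete (maximalIdeal 𝒪) 𝒪] [Finite (ResidueField 𝒪)]
    (p : ℕ) (ρbar : ResidualGaloisRep (ResidueField 𝒪)) (S Smin : Finset ℕ),
    Hyp 𝒪 p ρbar S Smin → ∀ P : ValuationSubring Qb, P.LiesOverPrime p →
      (∃ U : Submodule (ResidueField 𝒪) ρbar.V, U ≠ ⊥ ∧ U ≠ ⊤ ∧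
        ∀ σ ∈ P.decompositionSubgroup ℚ, ∀ x ∈ U, ρbar.ρ σ x ∈ U) →
      ∀ (c : GQ → Module.End (ResidueField 𝒪) ρbar.V)
        (ρ' : GaloisRepAdic (DualNumber (ResidueField 𝒪))),
        IsAdCocycle ρbar c → IsLiftOf ρbar c ρ' → ρ'.DetIsCyclotomic p → ρ'.IsFlatAt p →
        ∃ L : Submodule (DualNumber (ResidueField 𝒪)) ρ'.V,
          (∃ b : Module.Basis (Fin 2) (DualNumber (ResidueField 𝒪)) ρ'.V,
            L = (DualNumber (ResidueField 𝒪)) ∙ b 0) ∧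
          (∀ σ ∈ P.decompositionSubgroup ℚ, ∀ v ∈ L, ρ'.ρ σ v ∈ L) ∧
          (∀ σ ∈ P.inertiaSubgroupIn ℚ, ∀ v : ρ'.V, ρ'.ρ σ v - v ∈ L)

/-! ## (e) peu ramifié from FU -/

section peu

variable {k : Type} [Field k]

theorem isCycExp_one_of_fix {p : ℕ} (hp : p.Prime) {ζ : Qb} (hζ : IsPrimitiveRoot ζ p) {σ : GQ}
    (hσ : σ ζ = ζ) : IsCycExp p σ 1 := by
  intro μ hμ
  haveI : NeZero p := ⟨hp.ne_zero⟩
  obtain ⟨i, -, rfl⟩ := hζ.eq_pow_of_pow_eq_one hμ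
  rw [map_pow, hσ, pow_one]

/-- In a lift with cyclotomic determinant over `k[ε]` (`p = 0`), `det ρ'(σ) = a`. -/
theorem det_eq_natCast_of_detIsCyclotomic {p : ℕ} {ρ' : GaloisRepAdic (DualNumber k)}
    (hdet : ρ'.DetIsCyclotomic p) {σ : GQ} {a : ℕ} (ha : IsCycExp p σ a) :
    LinearMap.det (ρ'.ρ σ) = (a : DualNumber k) := by
  have hbot := span_pow_one_eq_bot (k := k) hdet.1
  have := hdet.2 1 σ a (fun μ hμ => ha μ (by rwa [pow_one] at hμ))
  rw [hbot, Ideal.mem_bot, sub_eq_zero] at this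
  exact this

/-- The character of `D_P` on an ordinary line, on inertia. -/
theorem line_char_inertia {p : ℕ} {ρ' : GaloisRepAdic (DualNumber k)}
    (hdet : ρ'.DetIsCyclotomic p) {P : ValuationSubring Qb}
    {L : Submodule (DualNumber k) ρ'.V} {b : Module.Basis (Fin 2) (DualNumber k) ρ'.V}
    (hLb : L = (DualNumber k) ∙ b 0)
    (hD : ∀ σ ∈ P.decompositionSubgroup ℚ, ∀ v ∈ L, ρ'.ρ σ v ∈ L)
    (hI : ∀ σ ∈ P.inertiaSubgroupIn ℚ, ∀ v : ρ'.V, ρ'.ρ σ v - v ∈ L)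
    {σ : GQ} (hσ : σ ∈ P.inertiaSubgroupIn ℚ) {a : ℕ} (ha : IsCycExp p σ a) :
    ρ'.ρ σ (b 0) = (a : DualNumber k) • b 0 := by
  have hb0L : b 0 ∈ L := by rw [hLb]; exact Submodule.mem_span_singleton_self _
  obtain ⟨x, hx⟩ : ∃ x : DualNumber k, ρ'.ρ σ (b 0) = x • b 0 := by
    have := hD σ (mem_decomposition_of_mem_inertia hσ) (b 0) hb0L
    rw [hLb, Submodule.mem_span_singleton] at this
    obtain ⟨x, hx⟩ := this
    exact ⟨x, hx.symm⟩
  obtain ⟨t₁, ht₁⟩ : ∃ t₁ : DualNumber k, ρ'.ρ σ (b 1) - b 1 = t₁ • b 0 := by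
    have := hI σ hσ (b 1)
    rw [hLb, Submodule.mem_span_singleton] at this
    obtain ⟨t, ht⟩ := this
    exact ⟨t, ht.symm⟩
  have hb1 : ρ'.ρ σ (b 1) = b 1 + t₁ • b 0 := by
    rw [← ht₁]; abel
  have hdetx : LinearMap.det (ρ'.ρ σ) = x := by
    rw [← LinearMap.det_toMatrix b, Matrix.det_fin_two]
    simp only [LinearMap.toMatrix_apply, hx, hb1, map_smul, map_add,
      Module.Basis.repr_self, Finsupp.smul_apply, Finsupp.add_apply, smul_eq_mul]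
    simp
  rw [hx, ← hdetx, det_eq_natCast_of_detIsCyclotomic hdet ha]

theorem finite_dualNumber [Finite k] : Finite (DualNumber k) :=
  Finite.of_equiv (k × k) (Equiv.refl _)

/-- The submodule `⊥ • ⊤ = ⊥` of the Prelude's `IsFlatAt` at the zero ideal. -/
abbrev fuLevelZero (ρ' : GaloisRepAdic (DualNumber k)) : Submodule (DualNumber k) ρ'.V :=
  (⊥ : Ideal (DualNumber k)) • (⊤ : Submodule (DualNumber k) ρ'.V)

/-- **(e)** For a flat lift `ρ'` with an ordinary line at `P`, every additive function of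
`ρ'(σ) w - w` is, on `H = {σ ∈ I_P : σ ζ = ζ}`, the Kummer character of a `P`-unit. -/
theorem exists_unit_of_flat_line [Finite k] {p : ℕ} [Fact p.Prime]
    (hFU : Fermat.Agent.S56.H906.FlatUnitStatement)
    (ρ' : GaloisRepAdic (DualNumber k)) (hdet : ρ'.DetIsCyclotomic p) (hflat : ρ'.IsFlatAt p)
    (P : ValuationSubring Qb) (hP : P.LiesOverPrime p)
    {L : Submodule (DualNumber k) ρ'.V} {b : Module.Basis (Fin 2) (DualNumber k) ρ'.V}
    (hLb : L = (DualNumber k) ∙ b 0)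
    (hD : ∀ σ ∈ P.decompositionSubgroup ℚ, ∀ v ∈ L, ρ'.ρ σ v ∈ L)
    (hI : ∀ σ ∈ P.inertiaSubgroupIn ℚ, ∀ v : ρ'.V, ρ'.ρ σ v - v ∈ L)
    {ζ : Qb} (hζ : IsPrimitiveRoot ζ p) (Ξ : ρ'.V →+ ZMod p) (w : ρ'.V) :
    ∃ B : Qb, P.valuation B = 1 ∧ ∀ σ ∈ P.inertiaSubgroupIn ℚ, σ ζ = ζ →
      σ B = ζ ^ (Ξ (ρ'.ρ σ w - w)).val * B := by
  classical
  have hp : p.Prime := Fact.out
  haveI : Finite (DualNumber k) := finite_dualNumber
  haveI : Finite ρ'.V := Module.finite_of_finite (DualNumber k)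
  haveI : Finite (ρ'.V ⧸ fuLevelZero ρ') :=
    Finite.of_surjective _ (Submodule.Quotient.mk_surjective (fuLevelZero ρ'))
  -- the Hopf lattice on `M = ρ'.V / (⊥ • ⊤)`
  have hfinq : Finite (DualNumber k ⧸ (⊥ : Ideal (DualNumber k))) :=
    Finite.of_surjective _ Ideal.Quotient.mk_surjective
  have hbot : fuLevelZero ρ' = ⊥ := Submodule.bot_smul _
  have hmodel : Fermat.Agent.S19.HopfModel p (ρ'.V ⧸ fuLevelZero ρ')
      (fun σ => ρ'.levelAction ⊥ σ) := hflat.2 ⊥ hfinq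
  obtain ⟨Λ, hΛ⟩ := exists_isHopfLattice_of_hopfModel hmodel
  let q' : (ρ'.V ⧸ fuLevelZero ρ') ≃ₗ[DualNumber k] ρ'.V :=
    Submodule.quotEquivOfEqBot (fuLevelZero ρ') hbot
  have hq' : ∀ v : ρ'.V, q' (Submodule.Quotient.mk v) = v := fun v =>
    Submodule.quotEquivOfEqBot_apply_mk (fuLevelZero ρ') hbot v
  have hact : ∀ (σ : GQ) (v : ρ'.V),
      ρ'.levelAction ⊥ σ (Submodule.Quotient.mk v) = Submodule.Quotient.mk (ρ'.ρ σ v) :=
    fun σ v => rfl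
  have hpk : (p : DualNumber k) = 0 := natCast_dual_eq_zero hdet.1
  have hkill : ∀ x : ρ'.V ⧸ fuLevelZero ρ', p • x = 0 := by
    intro x
    rw [← Nat.cast_smul_eq_nsmul (DualNumber k), hpk, zero_smul]
  have hb0L : b 0 ∈ L := by rw [hLb]; exact Submodule.mem_span_singleton_self _
  -- the line in `M`
  let LM : AddSubgroup (ρ'.V ⧸ fuLevelZero ρ') := (L.map (fuLevelZero ρ').mkQ).toAddSubgroup
  have hfix : ∀ σ ∈ P.inertiaSubgroupIn ℚ, σ ζ = ζ → ∀ t ∈ LM,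
      (fun σ => ρ'.levelAction ⊥ σ) σ t = t := by
    rintro σ hσ hσζ t ⟨v, hv, rfl⟩
    have hv' : v ∈ (DualNumber k) ∙ b 0 := by rw [← hLb]; exact hv
    obtain ⟨r, rfl⟩ := Submodule.mem_span_singleton.mp hv'
    show ρ'.levelAction ⊥ σ (Submodule.Quotient.mk (r • b 0)) = Submodule.Quotient.mk (r • b 0)
    rw [hact, map_smul, line_char_inertia hdet hLb hD hI hσ (isCycExp_one_of_fix hp hζ hσζ),
      Nat.cast_one, one_smul]
  have hdiff : ∀ σ ∈ P.inertiaSubgroupIn ℚ, σ ζ = ζ → ∀ y : ρ'.V ⧸ fuLevelZero ρ',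
      (fun σ => ρ'.levelAction ⊥ σ) σ y - y ∈ LM := by
    intro σ hσ _ y
    obtain ⟨v, rfl⟩ := Submodule.Quotient.mk_surjective (fuLevelZero ρ') y
    refine ⟨ρ'.ρ σ v - v, hI σ hσ v, ?_⟩
    show (fuLevelZero ρ').mkQ (ρ'.ρ σ v - v) =
      ρ'.levelAction ⊥ σ (Submodule.Quotient.mk v) - Submodule.Quotient.mk v
    rw [hact]
    rfl
  obtain ⟨B, hB1, hB⟩ := hFU p (ρ'.V ⧸ fuLevelZero ρ') (fun σ => ρ'.levelAction ⊥ σ) Λ hΛ hkill
    P hP ζ hζ LM hfix hdiff (Ξ.comp (q' : (ρ'.V ⧸ fuLevelZero ρ') →+ ρ'.V))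
    (Submodule.Quotient.mk w)
  refine ⟨B, hB1, fun σ hσ hσζ => ?_⟩
  have := hB σ hσ hσζ
  rw [this]
  congr 3

end peu

/-! ## (S3) the structure of a flat-ordinary lift -/

section struct

variable {k : Type} [Field k] (ρbar : ResidualGaloisRep k) (p : ℕ) (P : ValuationSubring Qb)

/-- The `c`-independent part of the flat-ordinary data: `ℓ₀` spans a `D_P`-stable line on which
inertia acts by the cyclotomic character, with trivial inertia action on the quotient. -/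
def IsFOLine (ℓ₀ : ρbar.V) : Prop :=
  ℓ₀ ≠ 0 ∧ ∀ σ ∈ P.decompositionSubgroup ℚ, ∃ x₀ : k, ρbar.ρ σ ℓ₀ = x₀ • ℓ₀ ∧
    (σ ∈ P.inertiaSubgroupIn ℚ →
      (∀ a : ℕ, IsCycExp p σ a → x₀ = (a : k)) ∧ ∀ v : ρbar.V, ∃ s : k, ρbar.ρ σ v - v = s • ℓ₀)

/-- The flat-ordinary data of a cocycle `c`: `ℓ₀ + ε ℓ₁` generates a `D_P`-stable `k[ε]`-line in
the lift, with character `x₀ + ε x₁`, `x₁ = 0` on inertia. -/
def IsFOData (c : GQ → Module.End k ρbar.V) (ℓ₀ ℓ₁ : ρbar.V) : Prop :=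
  ℓ₀ ≠ 0 ∧ ∀ σ ∈ P.decompositionSubgroup ℚ, ∃ x₀ x₁ : k, ρbar.ρ σ ℓ₀ = x₀ • ℓ₀ ∧
    ρbar.ρ σ ℓ₁ + c σ (ρbar.ρ σ ℓ₀) = x₀ • ℓ₁ + x₁ • ℓ₀ ∧
    (σ ∈ P.inertiaSubgroupIn ℚ → x₁ = 0 ∧
      (∀ a : ℕ, IsCycExp p σ a → x₀ = (a : k)) ∧ ∀ v : ρbar.V, ∃ s : k, ρbar.ρ σ v - v = s • ℓ₀)

/-- Every additive function of `σ w - w` (in the lift of `c`) is peu ramifié on
`{σ ∈ I_P : σ ζ = ζ}`. -/
def IsPeuLift (c : GQ → Module.End k ρbar.V) : Prop :=
  ∀ ζ : Qb, IsPrimitiveRoot ζ p → ∀ (Ξ : (DualNumber k ⊗[k] ρbar.V) →+ ZMod p)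
    (w : DualNumber k ⊗[k] ρbar.V),
    ∃ B : Qb, P.valuation B = 1 ∧ ∀ σ ∈ P.inertiaSubgroupIn ℚ, σ ζ = ζ →
      σ B = ζ ^ (Ξ (liftEnd ρbar c σ w - w)).val * B

variable {ρbar p P}

theorem IsFOData.isFOLine {c : GQ → Module.End k ρbar.V} {ℓ₀ ℓ₁ : ρbar.V}
    (h : IsFOData ρbar p P c ℓ₀ ℓ₁) : IsFOLine ρbar p P ℓ₀ := by
  refine ⟨h.1, fun σ hσ => ?_⟩
  obtain ⟨x₀, x₁, h1, -, h3⟩ := h.2 σ hσ
  exact ⟨x₀, h1, fun hI => (h3 hI).2⟩

theorem IsFOData.smul {c : GQ → Module.End k ρbar.V} {ℓ₀ ℓ₁ : ρbar.V}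
    (h : IsFOData ρbar p P c ℓ₀ ℓ₁) {r : k} (hr : r ≠ 0) :
    IsFOData ρbar p P c (r • ℓ₀) (r • ℓ₁) := by
  refine ⟨smul_ne_zero hr h.1, fun σ hσ => ?_⟩
  obtain ⟨x₀, x₁, h1, h2, h3⟩ := h.2 σ hσ
  refine ⟨x₀, x₁, ?_, ?_, fun hI => ?_⟩
  · rw [map_smul, h1, smul_comm]
  · rw [map_smul, map_smul, map_smul, ← smul_add, h2, smul_add, smul_comm r x₀, smul_comm r x₁]
  · obtain ⟨hx1, hcyc, hv⟩ := h3 hI
    refine ⟨hx1, hcyc, fun v => ?_⟩
    obtain ⟨s, hs⟩ := hv v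
    exact ⟨s * r⁻¹, by rw [hs, smul_smul, mul_assoc, inv_mul_cancel₀ hr, mul_one]⟩

/-- The flat-ordinary line is unique (`p` odd). -/
theorem IsFOLine.unique [CharP k p] (hp : p.Prime) (hp2 : p ≠ 2) (hP : P.LiesOverPrime p)
    {ℓ₀ ℓ₀' : ρbar.V} (h : IsFOLine ρbar p P ℓ₀) (h' : IsFOLine ρbar p P ℓ₀') :
    ∃ r : k, r ≠ 0 ∧ ℓ₀' = r • ℓ₀ := by
  obtain ⟨σ, hσI, a, ha, ha1⟩ := exists_inertia_isCycExp_ne_one hp hp2 k P hP
  have hσD := mem_decomposition_of_mem_inertia hσI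
  obtain ⟨x₀, -, hI⟩ := h.2 σ hσD
  obtain ⟨x₀', hx', hI'⟩ := h'.2 σ hσD
  obtain ⟨s, hs⟩ := (hI hσI).2 ℓ₀'
  rw [hx', (hI' hσI).1 a ha] at hs
  have ha1' : (a : k) - 1 ≠ 0 := sub_ne_zero.mpr ha1
  have hs' : ((a : k) - 1) • ℓ₀' = s • ℓ₀ := by rw [sub_smul, one_smul]; exact hs
  have hℓ : ℓ₀' = (((a : k) - 1)⁻¹ * s) • ℓ₀ := by
    rw [mul_smul, ← hs', smul_smul, inv_mul_cancel₀ ha1', one_smul]
  refine ⟨((a : k) - 1)⁻¹ * s, ?_, hℓ⟩
  intro h0
  rw [h0, zero_smul] at hℓ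
  exact h'.1 hℓ

/-- **(S3)** the flat-ordinary data from an ordinary line of a lift. -/
theorem locFO_struct (hp : p.Prime) (c : GQ → Module.End k ρbar.V)
    (ρ' : GaloisRepAdic (DualNumber k))
    (hlift : IsLiftOf ρbar c ρ') (hdet : ρ'.DetIsCyclotomic p)
    {L : Submodule (DualNumber k) ρ'.V} {b : Module.Basis (Fin 2) (DualNumber k) ρ'.V}
    (hLb : L = (DualNumber k) ∙ b 0)
    (hD : ∀ σ ∈ P.decompositionSubgroup ℚ, ∀ v ∈ L, ρ'.ρ σ v ∈ L)
    (hI : ∀ σ ∈ P.inertiaSubgroupIn ℚ, ∀ v : ρ'.V, ρ'.ρ σ v - v ∈ L) :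
    ∃ ℓ₀ ℓ₁ : ρbar.V, IsFOData ρbar p P c ℓ₀ ℓ₁ := by
  classical
  obtain ⟨e, he⟩ := hlift
  have hb0L : b 0 ∈ L := by rw [hLb]; exact Submodule.mem_span_singleton_self _
  refine ⟨dPi0 (e (b 0)), dPi1 (e (b 0)), ?_, ?_⟩
  · -- `ℓ₀ ≠ 0`
    intro h0
    have hε : (DualNumber.eps : DualNumber k) • e (b 0) = 0 := by
      apply coord_ext
      · rw [dPi0_smul, h0, smul_zero, map_zero]
      · rw [dPi1_smul, h0, DualNumber.fst_eps, zero_smul, smul_zero, add_zero, map_zero]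
    rw [← map_smul, LinearEquiv.map_eq_zero_iff] at hε
    have h1 := congrArg (fun f => b.repr f 0) hε
    simp only [map_smul, Module.Basis.repr_self, Finsupp.smul_apply, Finsupp.single_eq_same,
      smul_eq_mul, mul_one, map_zero, Finsupp.zero_apply] at h1
    have h2 := congrArg TrivSqZeroExt.snd h1
    simp at h2
  · intro σ hσ
    obtain ⟨x, hx⟩ : ∃ x : DualNumber k, ρ'.ρ σ (b 0) = x • b 0 := by
      have := hD σ hσ (b 0) hb0L
      rw [hLb, Submodule.mem_span_singleton] at this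
      obtain ⟨x, hx⟩ := this
      exact ⟨x, hx.symm⟩
    have hA : liftEnd ρbar c σ (e (b 0)) = x • e (b 0) := by
      rw [← he, hx, map_smul]
    refine ⟨TrivSqZeroExt.fst x, TrivSqZeroExt.snd x, ?_, ?_, fun hσI => ?_⟩
    · have := congrArg dPi0 hA
      rw [dPi0_liftEnd, dPi0_smul] at this
      exact this
    · have := congrArg dPi1 hA
      rw [dPi1_liftEnd, dPi1_smul] at this
      exact this
    · have hxa : ∀ a : ℕ, IsCycExp p σ a → x = (a : DualNumber k) := by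
        intro a ha
        have h1 := line_char_inertia hdet hLb hD hI hσI ha
        rw [hx] at h1
        have h2 := congrArg (fun f => b.repr f 0) h1
        simpa using h2
      obtain ⟨a₀, ha₀⟩ := Fermat.Agent.S56.H966.exists_isCycExp p hp.ne_zero σ
      refine ⟨?_, fun a ha => ?_, fun v => ?_⟩
      · rw [hxa a₀ ha₀, TrivSqZeroExt.snd_natCast]
      · rw [hxa a ha, TrivSqZeroExt.fst_natCast]
      · have hv := hI σ hσI (e.symm (dIota v))
        rw [hLb, Submodule.mem_span_singleton] at hv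
        obtain ⟨t, ht⟩ := hv
        have hB : liftEnd ρbar c σ (dIota v) - dIota v = t • e (b 0) := by
          have := congrArg e ht
          rw [map_smul, map_sub, he, LinearEquiv.apply_symm_apply] at this
          exact this.symm
        refine ⟨TrivSqZeroExt.fst t, ?_⟩
        have := congrArg dPi0 hB
        rw [map_sub, dPi0_liftEnd, dPi0_smul, dPi0_dIota] at this
        exact this

/-- **(e)** in cocycle language: the lift of a flat-ordinary cocycle is peu ramifié. -/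
theorem isPeuLift_of_flat [Finite k] [Fact p.Prime]
    (hFU : Fermat.Agent.S56.H906.FlatUnitStatement)
    (c : GQ → Module.End k ρbar.V) (ρ' : GaloisRepAdic (DualNumber k))
    (hlift : IsLiftOf ρbar c ρ') (hdet : ρ'.DetIsCyclotomic p) (hflat : ρ'.IsFlatAt p)
    (hP : P.LiesOverPrime p)
    {L : Submodule (DualNumber k) ρ'.V} {b : Module.Basis (Fin 2) (DualNumber k) ρ'.V}
    (hLb : L = (DualNumber k) ∙ b 0)
    (hD : ∀ σ ∈ P.decompositionSubgroup ℚ, ∀ v ∈ L, ρ'.ρ σ v ∈ L)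
    (hI : ∀ σ ∈ P.inertiaSubgroupIn ℚ, ∀ v : ρ'.V, ρ'.ρ σ v - v ∈ L) :
    IsPeuLift ρbar p P c := by
  obtain ⟨e, he⟩ := hlift
  intro ζ hζ Ξ w
  obtain ⟨B, hB1, hB⟩ := exists_unit_of_flat_line hFU ρ' hdet hflat P hP hLb hD hI hζ
    (Ξ.comp (e : ρ'.V →+ (DualNumber k ⊗[k] ρbar.V))) (e.symm w)
  refine ⟨B, hB1, fun σ hσ hσζ => ?_⟩
  rw [hB σ hσ hσζ]
  congr 3
  show Ξ (e (ρ'.ρ σ (e.symm w) - e.symm w)) = _
  rw [map_sub, he, LinearEquiv.apply_symm_apply]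

end struct

/-! ## Linear algebra: conjugation by a triangular matrix -/

section tri

variable {k : Type} [Field k] {V : Type} [AddCommGroup V] [Module k V]
  (B : Module.Basis (Fin 2) k V) (R Rinv C : Module.End k V)

theorem tri_coord1 {x₀ : k} (h1 : R (B 0) = x₀ • B 0) (v : V) :
    B.coord 1 (R v) = B.coord 1 (R (B 1)) * B.coord 1 v := by
  conv_lhs => rw [expand B v]
  rw [map_add, map_smul, map_smul, h1, map_add, map_smul, map_smul, map_smul, coord1_self0,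
    smul_eq_mul, smul_eq_mul, smul_eq_mul, mul_zero, mul_zero, zero_add, mul_comm]

theorem tri_coord1_ne_zero (hR : R * Rinv = 1) {x₀ : k} (h1 : R (B 0) = x₀ • B 0) :
    B.coord 1 (R (B 1)) ≠ 0 := by
  intro h0
  have h := tri_coord1 B R h1 (Rinv (B 1))
  rw [apply_inv_apply' R Rinv hR, coord1_self, h0, zero_mul] at h
  exact one_ne_zero h

theorem tri_coord1_inv (hR : R * Rinv = 1) {x₀ : k} (h1 : R (B 0) = x₀ • B 0) (v : V) :
    B.coord 1 (Rinv v) = (B.coord 1 (R (B 1)))⁻¹ * B.coord 1 v := by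
  have h := tri_coord1 B R h1 (Rinv v)
  rw [apply_inv_apply' R Rinv hR] at h
  rw [h, ← mul_assoc, inv_mul_cancel₀ (tri_coord1_ne_zero B R Rinv hR h1), one_mul]

theorem tri_x0_ne_zero (hR' : Rinv * R = 1) {x₀ : k} (h1 : R (B 0) = x₀ • B 0) : x₀ ≠ 0 := by
  intro h0
  have h := inv_apply_apply' R Rinv hR' (B 0)
  rw [h1, h0, zero_smul, map_zero] at h
  exact basis0_ne_zero B h.symm

theorem tri_conj_nil0 (hR : R * Rinv = 1) {x₀ : k} (h1 : R (B 0) = x₀ • B 0) :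
    R * nil0 B * Rinv = (x₀ * (B.coord 1 (R (B 1)))⁻¹) • nil0 B := by
  apply LinearMap.ext
  intro u
  rw [Module.End.mul_apply, Module.End.mul_apply, nil0_apply, map_smul, h1,
    tri_coord1_inv B R Rinv hR h1, LinearMap.smul_apply, nil0_apply, smul_smul, smul_smul]
  congr 1
  ring

theorem trace_eq_coords [Module.Finite k V] :
    LinearMap.trace k V C = B.coord 0 (C (B 0)) + B.coord 1 (C (B 1)) := by
  rw [LinearMap.trace_eq_matrix_trace k B C, Matrix.trace_fin_two]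
  simp only [LinearMap.toMatrix_apply, Module.Basis.coord_apply]

/-- A trace-zero endomorphism killing `B 0` is a multiple of `n₀`. -/
theorem eq_smul_nil0_of_trace [Module.Finite k V] (h0 : C (B 0) = 0)
    (htr : LinearMap.trace k V C = 0) : C = B.coord 0 (C (B 1)) • nil0 B := by
  have h11 : B.coord 1 (C (B 1)) = 0 := by
    rw [trace_eq_coords B C, h0, map_zero, zero_add] at htr
    exact htr
  have hB1 : C (B 1) = B.coord 0 (C (B 1)) • B 0 := by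
    conv_lhs => rw [expand B (C (B 1))]
    rw [h11, zero_smul, add_zero]
  refine eq_smul_nil0 B C h0 fun u => ⟨B.coord 1 u * B.coord 0 (C (B 1)), ?_⟩
  have hu : C u = B.coord 1 u • C (B 1) := by
    conv_lhs => rw [expand B u]
    rw [map_add, map_smul, map_smul, h0, smul_zero, zero_add]
  rw [hu]
  conv_lhs => rw [hB1]
  rw [smul_smul]

/-- The value at `B 0` of a conjugate. -/
theorem tri_conj_basis0 (hR' : Rinv * R = 1) {x₀ α : k} (h1 : R (B 0) = x₀ • B 0)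
    (hC : C (B 0) = α • B 0) : (R * C * Rinv) (B 0) = α • B 0 := by
  have hx₀ := tri_x0_ne_zero B R Rinv hR' h1
  rw [Module.End.mul_apply, Module.End.mul_apply, inv_basis0 B R Rinv hR' x₀ h1 hx₀, map_smul,
    hC, map_smul, map_smul, h1, smul_smul, smul_smul]
  congr 1
  field_simp

/-- The corrected cocycle `c + ∂(corr)` at `B 0`. -/
theorem fo_cprime_basis0 (hR' : Rinv * R = 1) {ℓ₁ : V} {x₀ x₁ : k} (h1 : R (B 0) = x₀ • B 0)
    (h2 : R ℓ₁ + C (R (B 0)) = x₀ • ℓ₁ + x₁ • B 0) :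
    (C + (R * corr B ℓ₁ * Rinv - corr B ℓ₁)) (B 0) = (x₁ * x₀⁻¹) • B 0 := by
  have hx₀ := tri_x0_ne_zero B R Rinv hR' h1
  have hCB : C (B 0) = ℓ₁ + (x₁ * x₀⁻¹) • B 0 - x₀⁻¹ • R ℓ₁ := by
    rw [h1, map_smul] at h2
    have h3 : x₀ • C (B 0) = x₀ • ℓ₁ + x₁ • B 0 - R ℓ₁ := by rw [← h2]; abel
    calc C (B 0) = x₀⁻¹ • (x₀ • C (B 0)) := by rw [smul_smul, inv_mul_cancel₀ hx₀, one_smul]
      _ = ℓ₁ + (x₁ * x₀⁻¹) • B 0 - x₀⁻¹ • R ℓ₁ := by
        rw [h3, smul_sub, smul_add, smul_smul, smul_smul, inv_mul_cancel₀ hx₀, one_smul,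
          mul_comm]
  rw [LinearMap.add_apply, LinearMap.sub_apply, Module.End.mul_apply, Module.End.mul_apply,
    inv_basis0 B R Rinv hR' x₀ h1 hx₀, corr_apply, corr_apply, coord0_self, one_smul,
    (B.coord 0).map_smul, coord0_self, smul_eq_mul, mul_one, map_smul, hCB]
  abel

theorem tri_inv_basis1 (hR' : Rinv * R = 1) {x₀ u : k} (h1 : R (B 0) = x₀ • B 0)
    (h3 : R (B 1) - B 1 = u • B 0) : Rinv (B 1) = B 1 - (u * x₀⁻¹) • B 0 := by
  have hx₀ := tri_x0_ne_zero B R Rinv hR' h1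
  have hRB1 : R (B 1) = B 1 + u • B 0 := by rw [← h3]; abel
  have h := inv_apply_apply' R Rinv hR' (B 1)
  rw [hRB1, map_add, map_smul, inv_basis0 B R Rinv hR' x₀ h1 hx₀, smul_smul] at h
  exact eq_sub_of_add_eq h

/-- The corrected cocycle at `B 1`, on inertia. -/
theorem fo_cprime_basis1 (hR' : Rinv * R = 1) {ℓ₁ : V} {x₀ u : k} (h1 : R (B 0) = x₀ • B 0)
    (h2 : R ℓ₁ + C (R (B 0)) = x₀ • ℓ₁) (h3 : R (B 1) - B 1 = u • B 0) :
    (C + (R * corr B ℓ₁ * Rinv - corr B ℓ₁)) (B 1) = C (R (B 1)) - u • ℓ₁ := by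
  have hx₀ := tri_x0_ne_zero B R Rinv hR' h1
  have hRB1 : R (B 1) = B 1 + u • B 0 := by rw [← h3]; abel
  have hCB : C (B 0) = ℓ₁ - x₀⁻¹ • R ℓ₁ := by
    rw [h1, map_smul] at h2
    have h4 : x₀ • C (B 0) = x₀ • ℓ₁ - R ℓ₁ := by rw [← h2]; abel
    calc C (B 0) = x₀⁻¹ • (x₀ • C (B 0)) := by rw [smul_smul, inv_mul_cancel₀ hx₀, one_smul]
      _ = ℓ₁ - x₀⁻¹ • R ℓ₁ := by
        rw [h4, smul_sub, smul_smul, inv_mul_cancel₀ hx₀, one_smul]
  rw [LinearMap.add_apply, LinearMap.sub_apply, Module.End.mul_apply, Module.End.mul_apply,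
    tri_inv_basis1 B R Rinv hR' h1 h3, corr_apply, corr_apply, map_sub, (B.coord 0).map_smul,
    coord0_self1, coord0_self, zero_smul, sub_zero, smul_eq_mul, mul_one, zero_sub, neg_smul,
    map_neg, map_smul, hRB1, map_add, map_smul, hCB, smul_sub, smul_smul]
  abel

/-- The coboundary of the projector at `B 1`. -/
theorem fo_conj_proj0_basis1 (hR' : Rinv * R = 1) {x₀ u : k} (h1 : R (B 0) = x₀ • B 0)
    (h3 : R (B 1) - B 1 = u • B 0) :
    (R * proj0 B * Rinv - proj0 B) (B 1) = (-u) • B 0 := by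
  have hx₀ := tri_x0_ne_zero B R Rinv hR' h1
  rw [LinearMap.sub_apply, Module.End.mul_apply, Module.End.mul_apply,
    tri_inv_basis1 B R Rinv hR' h1 h3, proj0_apply, proj0_apply, map_sub, (B.coord 0).map_smul,
    coord0_self1, coord0_self, zero_smul, sub_zero, smul_eq_mul, mul_one, zero_sub, map_smul,
    h1, smul_smul, neg_mul, mul_assoc, inv_mul_cancel₀ hx₀, mul_one]

end tri

/-! ## Peu ramifié functions -/

section peuclosure

variable {k : Type} [Field k] {p : ℕ} [Fact p.Prime] {P : ValuationSubring Qb}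

theorem pow_val_add {ζ : Qb} (hζ : ζ ^ p = 1) (a b : ZMod p) :
    ζ ^ (a + b).val = ζ ^ a.val * ζ ^ b.val := by
  rw [ZMod.val_add, ← pow_add, ← pow_eq_pow_mod _ hζ]

theorem isPeu_zero : Fermat.Agent.S56.H906.IsPeu p P (fun _ : GQ => (0 : k)) := by
  intro ζ _ ℓ
  refine ⟨1, Valuation.map_one _, fun σ _ _ => ?_⟩
  simp

theorem isPeu_add {c₁ c₂ : GQ → k} (h₁ : Fermat.Agent.S56.H906.IsPeu p P c₁)
    (h₂ : Fermat.Agent.S56.H906.IsPeu p P c₂) :
    Fermat.Agent.S56.H906.IsPeu p P (fun σ => c₁ σ + c₂ σ) := by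
  intro ζ hζ ℓ
  obtain ⟨B₁, hB₁, h1⟩ := h₁ ζ hζ ℓ
  obtain ⟨B₂, hB₂, h2⟩ := h₂ ζ hζ ℓ
  refine ⟨B₁ * B₂, by rw [Valuation.map_mul, hB₁, hB₂, one_mul], fun σ hσ hσζ => ?_⟩
  rw [map_mul, h1 σ hσ hσζ, h2 σ hσ hσζ, map_add, pow_val_add hζ.pow_eq_one]
  ring

theorem isPeu_smul {c : GQ → k} (h : Fermat.Agent.S56.H906.IsPeu p P c) (r : k) :
    Fermat.Agent.S56.H906.IsPeu p P (fun σ => r * c σ) := by
  intro ζ hζ ℓ
  obtain ⟨B, hB, h1⟩ := h ζ hζ (ℓ.comp (AddMonoidHom.mulLeft r))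
  exact ⟨B, hB, fun σ hσ hσζ => h1 σ hσ hσζ⟩

theorem isPeu_congr {c₁ c₂ : GQ → k} (h : Fermat.Agent.S56.H906.IsPeu p P c₁)
    (heq : ∀ σ ∈ P.inertiaSubgroupIn ℚ, c₂ σ = c₁ σ) :
    Fermat.Agent.S56.H906.IsPeu p P c₂ := by
  intro ζ hζ ℓ
  obtain ⟨B, hB, h1⟩ := h ζ hζ ℓ
  exact ⟨B, hB, fun σ hσ hσζ => by rw [heq σ hσ]; exact h1 σ hσ hσζ⟩

end peuclosure

/-! ## More cocycles -/

section morecoc

variable {k : Type} [Field k] {ρbar : ResidualGaloisRep k}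

theorem isAdCocycle_zero' : IsAdCocycle ρbar (fun _ => (0 : Module.End k ρbar.V)) where
  trace_eq_zero _ := map_zero _
  map_mul σ τ := by simp
  level := ⟨⊥, inferInstance, fun _ _ _ => rfl⟩

theorem isAdCocycle_smul' {c : GQ → Module.End k ρbar.V} (h : IsAdCocycle ρbar c) (r : k) :
    IsAdCocycle ρbar (fun σ => r • c σ) where
  trace_eq_zero σ := by rw [map_smul, h.trace_eq_zero, smul_zero]
  map_mul σ τ := by
    rw [h.map_mul, smul_add, mul_smul_comm, smul_mul_assoc]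
  level := by
    obtain ⟨L, hL, h1⟩ := h.level
    exact ⟨L, hL, fun σ τ hτ => by rw [h1 σ τ hτ]⟩

end morecoc

/-! ## (f) the count -/

section count

variable {k : Type} [Field k] {ρbar : ResidualGaloisRep k} {p : ℕ} {P : ValuationSubring Qb}
  (B : Module.Basis (Fin 2) k ρbar.V)

/-- The character `χ₁ χ₂⁻¹` of `D_P` on `Hom(V/L, L)`. -/
def foChar (σ : GQ) : k := B.coord 0 (ρbar.ρ σ (B 0)) * (B.coord 1 (ρbar.ρ σ (B 1)))⁻¹

variable {B}

theorem fo_rho_basis0 (hline : IsFOLine ρbar p P (B 0)) {σ : GQ}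
    (hσ : σ ∈ P.decompositionSubgroup ℚ) :
    ρbar.ρ σ (B 0) = B.coord 0 (ρbar.ρ σ (B 0)) • B 0 := by
  obtain ⟨x₀, hx, -⟩ := hline.2 σ hσ
  rw [hx, map_smul, coord0_self, smul_eq_mul, mul_one]

theorem fo_conj_nil0 (hline : IsFOLine ρbar p P (B 0)) {σ : GQ}
    (hσ : σ ∈ P.decompositionSubgroup ℚ) :
    ρbar.ρ σ * nil0 B * ρbar.ρ σ⁻¹ = foChar B σ • nil0 B :=
  tri_conj_nil0 B (ρbar.ρ σ) (ρbar.ρ σ⁻¹) (rho_mul_inv' ρbar σ) (fo_rho_basis0 hline hσ)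

theorem fo_cob_smul_nil0 (hline : IsFOLine ρbar p P (B 0)) {σ : GQ}
    (hσ : σ ∈ P.decompositionSubgroup ℚ) (m : k) :
    ρbar.ρ σ * (m • nil0 B) * ρbar.ρ σ⁻¹ - m • nil0 B = ((foChar B σ - 1) * m) • nil0 B := by
  rw [mul_smul_comm, smul_mul_assoc, fo_conj_nil0 hline hσ, smul_smul, ← sub_smul]
  congr 1
  ring

theorem foChar_isOrdChar (hline : IsFOLine ρbar p P (B 0)) :
    Fermat.Agent.S56.H906.IsOrdChar p P (foChar B) where
  map_one := by
    unfold foChar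
    rw [map_one, Module.End.one_apply, Module.End.one_apply, coord0_self, coord1_self, inv_one,
      mul_one]
  map_mul σ hσ τ hτ := by
    unfold foChar
    have h1 : B.coord 0 (ρbar.ρ (σ * τ) (B 0)) =
        B.coord 0 (ρbar.ρ σ (B 0)) * B.coord 0 (ρbar.ρ τ (B 0)) := by
      rw [map_mul, Module.End.mul_apply]
      conv_lhs => rw [fo_rho_basis0 hline hτ, map_smul, map_smul, smul_eq_mul]
      ring
    have h2 : B.coord 1 (ρbar.ρ (σ * τ) (B 1)) =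
        B.coord 1 (ρbar.ρ σ (B 1)) * B.coord 1 (ρbar.ρ τ (B 1)) := by
      rw [map_mul, Module.End.mul_apply, tri_coord1 B (ρbar.ρ σ) (fo_rho_basis0 hline hσ)]
    rw [h1, h2, mul_inv]
    ring
  level := by
    obtain ⟨L, hL, h1⟩ := ρbar.factorsThroughFiniteLevel
    refine ⟨L, hL, fun σ _ τ _ hτ => ?_⟩
    unfold foChar
    rw [map_mul, h1 τ hτ, mul_one]
  cyc σ hσ n hn := by
    obtain ⟨x₀, hx, hI⟩ := hline.2 σ (mem_decomposition_of_mem_inertia hσ)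
    obtain ⟨hcyc, hv⟩ := hI hσ
    obtain ⟨s, hs⟩ := hv (B 1)
    have h1 : B.coord 0 (ρbar.ρ σ (B 0)) = (n : k) := by
      rw [hx, map_smul, coord0_self, smul_eq_mul, mul_one, hcyc n hn]
    have h2 : B.coord 1 (ρbar.ρ σ (B 1)) = 1 := by
      have : ρbar.ρ σ (B 1) = B 1 + s • B 0 := by rw [← hs]; abel
      rw [this, map_add, map_smul, coord1_self, coord1_self0, smul_eq_mul, mul_zero, add_zero]
    unfold foChar
    rw [h1, h2, inv_one, mul_one]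

variable (p P B)

/-- Normalised flat-ordinary cocycles: upper triangular on `D_P` w.r.t. the line `k B₀`, with
unramified diagonal part and peu ramifié off-diagonal part. -/
def IsNormFO (c' : GQ → Module.End k ρbar.V) : Prop :=
  IsAdCocycle ρbar c' ∧
    (∀ σ ∈ P.decompositionSubgroup ℚ, ∃ α : k, c' σ (B 0) = α • B 0) ∧
    (∀ σ ∈ P.inertiaSubgroupIn ℚ, c' σ (B 0) = 0) ∧
    Fermat.Agent.S56.H906.IsPeu p P (fun σ => B.coord 0 (c' σ (B 1)))

variable {p P B}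

theorem isNormFO_zero [Fact p.Prime] :
    IsNormFO p P B (fun _ => (0 : Module.End k ρbar.V)) :=
  ⟨isAdCocycle_zero', fun _ _ => ⟨0, by simp⟩, fun _ _ => by simp, by
    simpa using isPeu_zero (k := k) (p := p) (P := P)⟩

theorem IsNormFO.add [Fact p.Prime] {c₁ c₂ : GQ → Module.End k ρbar.V}
    (h₁ : IsNormFO p P B c₁) (h₂ : IsNormFO p P B c₂) :
    IsNormFO p P B (fun σ => c₁ σ + c₂ σ) := by
  refine ⟨IsAdCocycle.add' h₁.1 h₂.1, fun σ hσ => ?_, fun σ hσ => ?_, ?_⟩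
  · obtain ⟨α₁, hα₁⟩ := h₁.2.1 σ hσ
    obtain ⟨α₂, hα₂⟩ := h₂.2.1 σ hσ
    exact ⟨α₁ + α₂, by rw [LinearMap.add_apply, hα₁, hα₂, add_smul]⟩
  · rw [LinearMap.add_apply, h₁.2.2.1 σ hσ, h₂.2.2.1 σ hσ, add_zero]
  · have := isPeu_add h₁.2.2.2 h₂.2.2.2
    refine isPeu_congr this fun σ _ => ?_
    rw [LinearMap.add_apply, map_add]

theorem IsNormFO.smul [Fact p.Prime] {c₁ : GQ → Module.End k ρbar.V}
    (h₁ : IsNormFO p P B c₁) (r : k) : IsNormFO p P B (fun σ => r • c₁ σ) := by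
  refine ⟨isAdCocycle_smul' h₁.1 r, fun σ hσ => ?_, fun σ hσ => ?_, ?_⟩
  · obtain ⟨α₁, hα₁⟩ := h₁.2.1 σ hσ
    exact ⟨r * α₁, by rw [LinearMap.smul_apply, hα₁, smul_smul]⟩
  · rw [LinearMap.smul_apply, h₁.2.2.1 σ hσ, smul_zero]
  · have := isPeu_smul h₁.2.2.2 r
    refine isPeu_congr this fun σ _ => ?_
    rw [LinearMap.smul_apply, map_smul, smul_eq_mul]

/-- (N1) a normalised cocycle whose diagonal part vanishes at `φ` has no diagonal part. -/
theorem IsNormFO.diag_eq_zero (hline : IsFOLine ρbar p P (B 0)) {φ : GQ}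
    (hφ : ∀ h : GQ → k,
      (∀ σ ∈ P.decompositionSubgroup ℚ, ∀ τ ∈ P.decompositionSubgroup ℚ,
        h (σ * τ) = h σ + h τ) →
      Fermat.Agent.S56.H906.HasLevelOn P h → (∀ σ ∈ P.inertiaSubgroupIn ℚ, h σ = 0) →
      h φ = 0 → ∀ σ ∈ P.decompositionSubgroup ℚ, h σ = 0)
    {c' : GQ → Module.End k ρbar.V} (hc' : IsNormFO p P B c')
    (h0 : B.coord 0 (c' φ (B 0)) = 0) :
    ∀ σ ∈ P.decompositionSubgroup ℚ, c' σ (B 0) = 0 := by
  have hval : ∀ σ ∈ P.decompositionSubgroup ℚ, c' σ (B 0) = B.coord 0 (c' σ (B 0)) • B 0 := by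
    intro σ hσ
    obtain ⟨α, hα⟩ := hc'.2.1 σ hσ
    rw [hα, map_smul, coord0_self, smul_eq_mul, mul_one]
  have key := hφ (fun σ => B.coord 0 (c' σ (B 0))) ?_ ?_ ?_ h0
  · intro σ hσ
    rw [hval σ hσ, key σ hσ, zero_smul]
  · intro σ hσ τ hτ
    show B.coord 0 (c' (σ * τ) (B 0)) = _
    rw [hc'.1.map_mul, LinearMap.add_apply,
      tri_conj_basis0 B (ρbar.ρ σ) (ρbar.ρ σ⁻¹) (c' τ) (rho_inv_mul' ρbar σ)
        (fo_rho_basis0 hline hσ) (hval τ hτ),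
      map_add, map_smul, coord0_self, smul_eq_mul, mul_one]
  · obtain ⟨L, hL, h1⟩ := hc'.1.level
    exact ⟨L, hL, fun σ _ τ _ hτ => by show B.coord 0 (c' (σ * τ) (B 0)) = _; rw [h1 σ τ hτ]⟩
  · intro σ hσ
    show B.coord 0 (c' σ (B 0)) = 0
    rw [hc'.2.2.1 σ hσ, map_zero]

/-- (N2) a normalised cocycle without diagonal part is, on `D_P`, a multiple of `κ₀ n₀` up to
the coboundary of a multiple of `n₀` (KUM). -/
theorem IsNormFO.kum (hline : IsFOLine ρbar p P (B 0)) {κ₀ : GQ → k}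
    (hκ₀ : ∀ c : GQ → k, Fermat.Agent.S56.H906.IsLocCocycle P (foChar B) c →
      Fermat.Agent.S56.H906.IsPeu p P c →
      ∃ lam m : k, ∀ σ ∈ P.decompositionSubgroup ℚ, c σ = lam * κ₀ σ + (foChar B σ - 1) * m)
    {c' : GQ → Module.End k ρbar.V} (hc' : IsNormFO p P B c')
    (hz : ∀ σ ∈ P.decompositionSubgroup ℚ, c' σ (B 0) = 0) :
    ∃ lam m : k, ∀ σ ∈ P.decompositionSubgroup ℚ,
      c' σ = (lam * κ₀ σ) • nil0 B +
        (ρbar.ρ σ * (m • nil0 B) * ρbar.ρ σ⁻¹ - m • nil0 B) := by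
  have hform : ∀ σ ∈ P.decompositionSubgroup ℚ, c' σ = B.coord 0 (c' σ (B 1)) • nil0 B :=
    fun σ hσ => eq_smul_nil0_of_trace B (c' σ) (hz σ hσ) (hc'.1.trace_eq_zero σ)
  have hcoc : Fermat.Agent.S56.H906.IsLocCocycle P (foChar B)
      (fun σ => B.coord 0 (c' σ (B 1))) := by
    refine ⟨fun σ hσ τ hτ => ?_, ?_⟩
    · show B.coord 0 (c' (σ * τ) (B 1)) = _
      have e1 : c' (σ * τ) = c' σ + ρbar.ρ σ * c' τ * ρbar.ρ σ⁻¹ := hc'.1.map_mul σ τ
      have e2 : ρbar.ρ σ * c' τ * ρbar.ρ σ⁻¹ =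
          (B.coord 0 (c' τ (B 1)) * foChar B σ) • nil0 B := by
        conv_lhs => rw [hform τ hτ]
        rw [mul_smul_comm, smul_mul_assoc, fo_conj_nil0 hline hσ, smul_smul]
      have e3 : c' (σ * τ) =
          (B.coord 0 (c' σ (B 1)) + foChar B σ * B.coord 0 (c' τ (B 1))) • nil0 B := by
        rw [e1, e2, add_smul, mul_comm]
        congr 1
        exact hform σ hσ
      rw [e3, coord0_smul_nil0_basis1]
    · obtain ⟨L, hL, h1⟩ := hc'.1.level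
      exact ⟨L, hL, fun σ _ τ _ hτ => by
        show B.coord 0 (c' (σ * τ) (B 1)) = _; rw [h1 σ τ hτ]⟩
  obtain ⟨lam, m, h⟩ := hκ₀ _ hcoc hc'.2.2.2
  refine ⟨lam, m, fun σ hσ => ?_⟩
  have e := h σ hσ
  beta_reduce at e
  rw [fo_cob_smul_nil0 hline hσ, ← add_smul, ← e]
  exact hform σ hσ

end count

/-! ## Normalisations -/

section norm

variable {k : Type} [Field k] {ρbar : ResidualGaloisRep k} {p : ℕ} [Fact p.Prime]
  {P : ValuationSubring Qb} {B : Module.Basis (Fin 2) k ρbar.V}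

/-- (N0) the normalisation `c + ∂(corr)` of a flat-ordinary cocycle. -/
theorem isNormFO_of_data {c : GQ → Module.End k ρbar.V} (hc : IsAdCocycle ρbar c) {ℓ₁ : ρbar.V}
    (hdata : IsFOData ρbar p P c (B 0) ℓ₁) (hpeu : IsPeuLift ρbar p P c) :
    IsNormFO p P B (fun σ => c σ + (ρbar.ρ σ * corr B ℓ₁ * ρbar.ρ σ⁻¹ - corr B ℓ₁)) := by
  refine ⟨IsAdCocycle.add' hc (isAdCocycle_cob ρbar (corr B ℓ₁)), fun σ hσ => ?_,
    fun σ hσ => ?_, ?_⟩
  · obtain ⟨x₀, x₁, h1, h2, -⟩ := hdata.2 σ hσ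
    exact ⟨x₁ * x₀⁻¹, fo_cprime_basis0 B (ρbar.ρ σ) (ρbar.ρ σ⁻¹) (c σ) (rho_inv_mul' ρbar σ) h1 h2⟩
  · obtain ⟨x₀, x₁, h1, h2, h3⟩ := hdata.2 σ (mem_decomposition_of_mem_inertia hσ)
    have hx1 := (h3 hσ).1
    rw [fo_cprime_basis0 B (ρbar.ρ σ) (ρbar.ρ σ⁻¹) (c σ) (rho_inv_mul' ρbar σ) h1 h2, hx1,
      zero_mul, zero_smul]
  · intro ζ hζ ℓ
    let ΞV : (DualNumber k ⊗[k] ρbar.V) →ₗ[k] k :=
      (B.coord 0).comp dPi1 - (B.coord 0 ℓ₁) • (B.coord 0).comp dPi0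
    obtain ⟨Bu, hBu, hB⟩ := hpeu ζ hζ (ℓ.comp (ΞV : (DualNumber k ⊗[k] ρbar.V) →+ k))
      (dIota (B 1))
    refine ⟨Bu, hBu, fun σ hσ hσζ => ?_⟩
    rw [hB σ hσ hσζ]
    congr 3
    obtain ⟨x₀, x₁, h1, h2, h3⟩ := hdata.2 σ (mem_decomposition_of_mem_inertia hσ)
    obtain ⟨hx1, -, hv⟩ := h3 hσ
    obtain ⟨u, hu⟩ := hv (B 1)
    rw [hx1, zero_smul, add_zero] at h2
    have e1 := fo_cprime_basis1 B (ρbar.ρ σ) (ρbar.ρ σ⁻¹) (c σ) (rho_inv_mul' ρbar σ) h1 h2 hu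
    show ℓ (ΞV (liftEnd ρbar c σ (dIota (B 1)) - dIota (B 1))) =
      ℓ (B.coord 0 ((c σ + (ρbar.ρ σ * corr B ℓ₁ * ρbar.ρ σ⁻¹ - corr B ℓ₁)) (B 1)))
    congr 1
    rw [e1]
    show (B.coord 0) (dPi1 (liftEnd ρbar c σ (dIota (B 1)) - dIota (B 1))) -
      (B.coord 0 ℓ₁) * (B.coord 0) (dPi0 (liftEnd ρbar c σ (dIota (B 1)) - dIota (B 1))) = _
    have hd1 : dPi1 (liftEnd ρbar c σ (dIota (B 1)) - dIota (B 1)) = c σ (ρbar.ρ σ (B 1)) := by
      rw [map_sub, dPi1_liftEnd, dPi0_dIota, dPi1_dIota, map_zero, zero_add, sub_zero]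
    have hd0 : dPi0 (liftEnd ρbar c σ (dIota (B 1)) - dIota (B 1)) = u • B 0 := by
      rw [map_sub, dPi0_liftEnd, dPi0_dIota, hu]
    rw [hd1, hd0, map_sub, map_smul, map_smul, coord0_self, smul_eq_mul, smul_eq_mul, mul_one,
      mul_comm]

/-- (N0') the coboundary of the projector on the line is normalised. -/
theorem isNormFO_proj (hline : IsFOLine ρbar p P (B 0)) {c₀ : GQ → Module.End k ρbar.V}
    (hpeu : IsPeuLift ρbar p P c₀) :
    IsNormFO p P B (fun σ => ρbar.ρ σ * proj0 B * ρbar.ρ σ⁻¹ - proj0 B) := by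
  have hz : ∀ σ ∈ P.decompositionSubgroup ℚ,
      (ρbar.ρ σ * proj0 B * ρbar.ρ σ⁻¹ - proj0 B) (B 0) = 0 := by
    intro σ hσ
    have h1 := fo_rho_basis0 hline hσ
    exact conj_proj0_basis0 B (ρbar.ρ σ) (ρbar.ρ σ⁻¹) (rho_inv_mul' ρbar σ) _ h1
      (tri_x0_ne_zero B (ρbar.ρ σ) (ρbar.ρ σ⁻¹) (rho_inv_mul' ρbar σ) h1)
  refine ⟨isAdCocycle_cob ρbar (proj0 B), fun σ hσ => ⟨0, by rw [hz σ hσ, zero_smul]⟩,
    fun σ hσ => hz σ (mem_decomposition_of_mem_inertia hσ), ?_⟩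
  intro ζ hζ ℓ
  let ΞV : (DualNumber k ⊗[k] ρbar.V) →ₗ[k] k := -((B.coord 0).comp dPi0)
  obtain ⟨Bu, hBu, hB⟩ := hpeu ζ hζ (ℓ.comp (ΞV : (DualNumber k ⊗[k] ρbar.V) →+ k))
    (dIota (B 1))
  refine ⟨Bu, hBu, fun σ hσ hσζ => ?_⟩
  rw [hB σ hσ hσζ]
  congr 3
  have hσD := mem_decomposition_of_mem_inertia hσ
  obtain ⟨x₀, hx, hI⟩ := hline.2 σ hσD
  obtain ⟨u, hu⟩ := (hI hσ).2 (B 1)
  have e1 := fo_conj_proj0_basis1 B (ρbar.ρ σ) (ρbar.ρ σ⁻¹) (rho_inv_mul' ρbar σ) hx hu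
  show ℓ (ΞV (liftEnd ρbar c₀ σ (dIota (B 1)) - dIota (B 1))) =
    ℓ (B.coord 0 ((ρbar.ρ σ * proj0 B * ρbar.ρ σ⁻¹ - proj0 B) (B 1)))
  congr 1
  rw [e1]
  show -((B.coord 0) (dPi0 (liftEnd ρbar c₀ σ (dIota (B 1)) - dIota (B 1)))) = _
  have hd0 : dPi0 (liftEnd ρbar c₀ σ (dIota (B 1)) - dIota (B 1)) = u • B 0 := by
    rw [map_sub, dPi0_liftEnd, dPi0_dIota, hu]
  rw [hd0, map_smul, map_smul, coord0_self, smul_eq_mul, smul_eq_mul, mul_one, neg_mul,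
    mul_one]

end norm

/-! ## The local bound -/

section final

variable {k : Type} [Field k]

/-- **FLAT-O over a field**, from the structure of flat-ordinary lifts, KUM and UNRHOM. -/
theorem localBoundAt_flatO [Finite k] {p : ℕ} [Fact p.Prime] [CharP k p] (hp2 : p ≠ 2)
    (hkum : Fermat.Agent.S56.H906.KumStatement)
    (hunr : Fermat.Agent.S56.H906.UnramHomStatement)
    (ρbar : ResidualGaloisRep k) (P : ValuationSubring Qb) (hP : P.LiesOverPrime p)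
    (hadm : ∀ c : GQ → Module.End k ρbar.V, IsAdCocycle ρbar c →
      (∃ ρ' : GaloisRepAdic (DualNumber k), IsLiftOf ρbar c ρ' ∧
        ρ'.DetIsCyclotomic p ∧ ρ'.IsFlatAt p) →
      (∃ ℓ₀ ℓ₁ : ρbar.V, IsFOData ρbar p P c ℓ₀ ℓ₁) ∧ IsPeuLift ρbar p P c) :
    LocalBoundAt ρbar P (fun ρ' => ρ'.DetIsCyclotomic p ∧ ρ'.IsFlatAt p) 1 := by
  classical
  have hp : p.Prime := Fact.out
  by_cases hex : ∃ (c : GQ → Module.End k ρbar.V) (ρ' : GaloisRepAdic (DualNumber k)),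
      IsAdCocycle ρbar c ∧ IsLiftOf ρbar c ρ' ∧ ρ'.DetIsCyclotomic p ∧ ρ'.IsFlatAt p
  swap
  · refine ⟨⊥, inferInstance, ?_, fun c hc h => ?_⟩
    · rw [finrank_bot]; exact Nat.zero_le _
    · obtain ⟨ρ', hl, hd, hs⟩ := h
      exact (hex ⟨c, ρ', hc, hl, hd, hs⟩).elim
  obtain ⟨c₀, ρ₀, hc₀, hl₀, hd₀, hf₀⟩ := hex
  obtain ⟨⟨ℓ₀, ℓ₁z, hdata₀⟩, hpeu₀⟩ := hadm c₀ hc₀ ⟨ρ₀, hl₀, hd₀, hf₀⟩
  obtain ⟨B, hB0⟩ := exists_basis_zero_eq ρbar.finrank_eq hdata₀.1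
  have hline : IsFOLine ρbar p P (B 0) := by rw [hB0]; exact hdata₀.isFOLine
  obtain ⟨κ₀, hκ₀⟩ := hkum p hp2 k P hP (foChar B) (foChar_isOrdChar hline)
  obtain ⟨φ, -, hφ⟩ := hunr p hp P hP
  have hφ' := hφ k
  -- every admissible cocycle has a normalisation
  have hnorm : ∀ c : GQ → Module.End k ρbar.V, IsAdCocycle ρbar c →
      (∃ ρ' : GaloisRepAdic (DualNumber k), IsLiftOf ρbar c ρ' ∧
        ρ'.DetIsCyclotomic p ∧ ρ'.IsFlatAt p) →
      ∃ M : Module.End k ρbar.V,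
        IsNormFO p P B (fun σ => c σ + (ρbar.ρ σ * M * ρbar.ρ σ⁻¹ - M)) := by
    intro c hc hl
    obtain ⟨⟨ℓ₀', ℓ₁', hdata⟩, hpeu⟩ := hadm c hc hl
    obtain ⟨r, hr, hrl⟩ := IsFOLine.unique hp hp2 hP hline hdata.isFOLine
    have h2 := hdata.smul (inv_ne_zero hr)
    have e : r⁻¹ • ℓ₀' = B 0 := by rw [hrl, smul_smul, inv_mul_cancel₀ hr, one_smul]
    rw [e] at h2
    exact ⟨corr B (r⁻¹ • ℓ₁'), isNormFO_of_data hc h2 hpeu⟩
  -- the diagonal generator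
  obtain ⟨η, hη, hηspec⟩ : ∃ η : GQ → Module.End k ρbar.V, IsNormFO p P B η ∧
      ∀ c' : GQ → Module.End k ρbar.V, IsNormFO p P B c' →
        ∃ μ : k, B.coord 0 ((c' φ + (-μ) • η φ) (B 0)) = 0 := by
    by_cases h : ∃ c₁ : GQ → Module.End k ρbar.V, IsNormFO p P B c₁ ∧
        B.coord 0 (c₁ φ (B 0)) ≠ 0
    · obtain ⟨c₁, hc₁, hne⟩ := h
      refine ⟨c₁, hc₁, fun c' _ => ⟨B.coord 0 (c' φ (B 0)) / B.coord 0 (c₁ φ (B 0)), ?_⟩⟩
      rw [LinearMap.add_apply, LinearMap.smul_apply, map_add, map_smul, smul_eq_mul, neg_mul,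
        div_mul_cancel₀ _ hne, add_neg_cancel]
    · push Not at h
      refine ⟨fun _ => 0, isNormFO_zero, fun c' hc' => ⟨0, ?_⟩⟩
      rw [neg_zero, zero_smul, add_zero]
      exact h c' hc'
  -- decomposition of the normalised cocycles
  have hdec : ∀ c' : GQ → Module.End k ρbar.V, IsNormFO p P B c' →
      ∃ μ lam m : k, ∀ σ ∈ P.decompositionSubgroup ℚ,
        c' σ = μ • η σ + (lam * κ₀ σ) • nil0 B +
          (ρbar.ρ σ * (m • nil0 B) * ρbar.ρ σ⁻¹ - m • nil0 B) := by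
    intro c' hc'
    obtain ⟨μ, hμ⟩ := hηspec c' hc'
    have hc'' : IsNormFO p P B (fun σ => c' σ + (-μ) • η σ) := hc'.add (hη.smul (-μ))
    have hz := hc''.diag_eq_zero hline hφ' hμ
    obtain ⟨lam, m, h⟩ := hc''.kum hline hκ₀ hz
    refine ⟨μ, lam, m, fun σ hσ => ?_⟩
    have e := h σ hσ
    beta_reduce at e
    have e' : c' σ = (lam * κ₀ σ) • nil0 B +
        (ρbar.ρ σ * (m • nil0 B) * ρbar.ρ σ⁻¹ - m • nil0 B) - (-μ) • η σ :=
      eq_sub_of_add_eq e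
    rw [e']
    module
  by_cases hinv : adInv ρbar (P.decompositionSubgroup ℚ) = ⊥
  · -- `H⁰ = 0`: the coboundary of the projector is a relation
    have hδ : IsNormFO p P B (fun σ => ρbar.ρ σ * proj0 B * ρbar.ρ σ⁻¹ - proj0 B) :=
      isNormFO_proj hline hpeu₀
    have hzδ : ∀ σ ∈ P.decompositionSubgroup ℚ,
        (ρbar.ρ σ * proj0 B * ρbar.ρ σ⁻¹ - proj0 B) (B 0) = 0 := by
      intro σ hσ
      obtain ⟨α, hα⟩ := hδ.2.1 σ hσ
      have h1 := fo_rho_basis0 hline hσ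
      exact conj_proj0_basis0 B (ρbar.ρ σ) (ρbar.ρ σ⁻¹) (rho_inv_mul' ρbar σ) _ h1
        (tri_x0_ne_zero B (ρbar.ρ σ) (ρbar.ρ σ⁻¹) (rho_inv_mul' ρbar σ) h1)
    obtain ⟨lam_d, m_d, hd⟩ := hδ.kum hline hκ₀ hzδ
    have h2k : (2 : k) ≠ 0 := by
      intro h
      have h' : ((2 : ℕ) : k) = 0 := by exact_mod_cast h
      have hdvd : p ∣ 2 := (CharP.cast_eq_zero_iff k p 2).mp h'
      exact hp2 ((Nat.prime_dvd_prime_iff_eq hp Nat.prime_two).mp hdvd)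
    have hne : lam_d ≠ 0 := by
      intro h0
      have hmem : proj0 B - m_d • nil0 B - (2 : k)⁻¹ • (1 : Module.End k ρbar.V) ∈
          adInv ρbar (P.decompositionSubgroup ℚ) := by
        refine ⟨?_, fun σ hσ => ?_⟩
        · rw [map_sub, map_sub, map_smul, map_smul, trace_proj0, trace_nil0,
            LinearMap.trace_one, ρbar.finrank_eq]
          simp only [smul_eq_mul, mul_zero, sub_zero, Nat.cast_ofNat]
          rw [inv_mul_cancel₀ h2k, sub_self]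
        · have h := hd σ hσ
          beta_reduce at h
          rw [h0, zero_mul, zero_smul, zero_add] at h
          have h' : ρbar.ρ σ * (proj0 B - m_d • nil0 B) * ρbar.ρ σ⁻¹ =
              proj0 B - m_d • nil0 B := by
            have e1 : ρbar.ρ σ * (proj0 B - m_d • nil0 B) * ρbar.ρ σ⁻¹ -
                (proj0 B - m_d • nil0 B) =
                (ρbar.ρ σ * proj0 B * ρbar.ρ σ⁻¹ - proj0 B) -
                  (ρbar.ρ σ * (m_d • nil0 B) * ρbar.ρ σ⁻¹ - m_d • nil0 B) := by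
              rw [mul_sub, sub_mul]; abel
            rw [h, sub_self] at e1
            exact sub_eq_zero.mp e1
          rw [mul_sub, sub_mul, h', mul_smul_comm, smul_mul_assoc, mul_one,
            rho_mul_inv' ρbar σ]
      rw [hinv, Submodule.mem_bot] at hmem
      have h0' := congrArg (fun F : Module.End k ρbar.V => B.coord 0 (F (B 0))) hmem
      simp only [LinearMap.sub_apply, LinearMap.smul_apply, proj0_apply, nil0_apply,
        Module.End.one_apply, map_sub, map_smul, coord0_self, coord1_self0, smul_eq_mul,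
        mul_one, zero_smul, smul_zero, sub_zero, one_smul, LinearMap.zero_apply,
        map_zero] at h0'
      have : (2 : k)⁻¹ = 1 := (sub_eq_zero.mp h0').symm
      have h21 : (2 : k) = 1 := by
        have := congrArg (fun t => (2 : k) * t) this
        simp only [mul_inv_cancel₀ h2k, mul_one] at this
        exact this.symm
      have h10 : (1 : k) = 0 := by
        have : (2 : k) - 1 = 0 := by rw [h21, sub_self]
        norm_num at this
      exact one_ne_zero h10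
    refine ⟨Submodule.span k {η}, Module.Finite.span_of_finite k (Set.toFinite _), ?_,
      fun c hc hex' => ?_⟩
    · rw [hinv, finrank_bot, zero_add]
      exact finrank_span_single_le _
    · obtain ⟨M, hM⟩ := hnorm c hc hex'
      obtain ⟨μ, lam, m, hdec'⟩ := hdec _ hM
      obtain ⟨r, hr⟩ : ∃ r : k, r * lam_d = lam := ⟨lam * lam_d⁻¹, by
        rw [mul_assoc, inv_mul_cancel₀ hne, mul_one]⟩
      refine ⟨μ • η, Submodule.smul_mem _ _ (Submodule.subset_span (Set.mem_singleton _)),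
        r • (proj0 B - m_d • nil0 B) + m • nil0 B - M, fun σ hσ => ?_⟩
      have e1 := hdec' σ hσ
      beta_reduce at e1
      have e2 := hd σ hσ
      beta_reduce at e2
      have e1' : c σ = μ • η σ + (lam * κ₀ σ) • nil0 B +
          (ρbar.ρ σ * (m • nil0 B) * ρbar.ρ σ⁻¹ - m • nil0 B) -
            (ρbar.ρ σ * M * ρbar.ρ σ⁻¹ - M) := eq_sub_of_add_eq e1
      have e2' : ρbar.ρ σ * proj0 B * ρbar.ρ σ⁻¹ = (lam_d * κ₀ σ) • nil0 B +
          (ρbar.ρ σ * (m_d • nil0 B) * ρbar.ρ σ⁻¹ - m_d • nil0 B) + proj0 B :=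
        eq_add_of_sub_eq e2
      show c σ - (μ • η) σ = _
      rw [Pi.smul_apply, e1', ← hr]
      simp only [mul_add, add_mul, mul_sub, sub_mul, mul_smul_comm, smul_mul_assoc] at e2' ⊢
      rw [e2']
      module
  · -- `H⁰ ≠ 0`
    refine ⟨Submodule.span k {η, fun σ => κ₀ σ • nil0 B},
      Module.Finite.span_of_finite k (Set.toFinite _), ?_, fun c hc hex' => ?_⟩
    · have h1 : 1 ≤ Module.finrank k (adInv ρbar (P.decompositionSubgroup ℚ)) :=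
        Submodule.one_le_finrank_iff.mpr hinv
      have h2 := finrank_span_pair_le (k := k) η (fun σ => κ₀ σ • nil0 B)
      omega
    · obtain ⟨M, hM⟩ := hnorm c hc hex'
      obtain ⟨μ, lam, m, hdec'⟩ := hdec _ hM
      refine ⟨μ • η + lam • (fun σ => κ₀ σ • nil0 B), ?_, m • nil0 B - M, fun σ hσ => ?_⟩
      · exact Submodule.add_mem _
          (Submodule.smul_mem _ _ (Submodule.subset_span (Set.mem_insert _ _)))
          (Submodule.smul_mem _ _ (Submodule.subset_span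
            (Set.mem_insert_of_mem _ (Set.mem_singleton _))))
      · have e1 := hdec' σ hσ
        beta_reduce at e1
        have e1' : c σ = μ • η σ + (lam * κ₀ σ) • nil0 B +
            (ρbar.ρ σ * (m • nil0 B) * ρbar.ρ σ⁻¹ - m • nil0 B) -
              (ρbar.ρ σ * M * ρbar.ρ σ⁻¹ - M) := eq_sub_of_add_eq e1
        show c σ - (μ • η σ + lam • (κ₀ σ • nil0 B)) = _
        rw [e1']
        simp only [mul_sub, sub_mul, mul_smul_comm, smul_mul_assoc]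
        module

end final

/-- **FLAT-O** (`FL.FlatOStatement`, the shape consumed by the proved glue `FL.locFlatP_of`) from
the ordinary line of flat lifts (STRUCT), FU, KUM and UNRHOM. -/
theorem flatO_of (hline : FlatOrdLineStatement)
    (hFU : Fermat.Agent.S56.H906.FlatUnitStatement)
    (hkum : Fermat.Agent.S56.H906.KumStatement)
    (hunr : Fermat.Agent.S56.H906.UnramHomStatement) :
    Fermat.Agent.S56.FL.FlatOStatement := by
  intro 𝒪 _ _ _ _ _ p ρbar S Smin hyp P hP hred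
  haveI : Fact p.Prime := ⟨hyp.hp⟩
  have hpk : ((p : ℕ) : ResidueField 𝒪) = 0 := by
    have h := (IsLocalRing.residue_eq_zero_iff (p : 𝒪)).mpr hyp.hp𝒪
    rwa [map_natCast] at h
  haveI : CharP (ResidueField 𝒪) p := (CharP.charP_iff_prime_eq_zero hyp.hp).mpr hpk
  refine localBoundAt_flatO hyp.hp2 hkum hunr ρbar P hP fun c hc hl => ?_
  obtain ⟨ρ', hl', hd, hf⟩ := hl
  obtain ⟨L, ⟨b, hLb⟩, hD, hI⟩ := hline 𝒪 p ρbar S Smin hyp P hP hred c ρ' hc hl' hd hf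
  exact ⟨locFO_struct hyp.hp c ρ' hl' hd hLb hD hI,
    isPeuLift_of_flat hFU c ρ' hl' hd hf hP hLb hD hI⟩

end Fermat.Agent.S56.H656

end
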