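import Fermat.Agent.S56.H906.FlatOSpec
import Fermat.Agent.S14.H894.Cyclo

/-!
# Row S56 — FLAT-O leaf FU (helper656): `flatUnit : H906.FlatUnitStatement`

"Unit resolvent = peu ramifié".  `M` a finite Galois module killed by `p` with a Hopf lattice `Λ`
(landed A3 vocabulary `S19/H435`), `P | p`, `H = {σ ∈ I_P : σ ζ = ζ}`, `L ≤ M` a subgroup fixed
pointwise by `H` and containing all `σ y - y` (`σ ∈ H`).  For every additive `ξ : M → 𝔽_p` and
every `x : M` there is a `P`-unit `B` with `σ B = ζ^{ξ(σ x - x)} B` for all `σ ∈ H`.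

Proof (no descent, no dual basis).  `ψ = ζ^ξ`, `T f (y) = ∑_{t ∈ L} ψ(-t) f (y + t)`.
* `T f (y + t₀) = ψ(t₀) T f (y)` for `t₀ ∈ L`; `σ (T f y) = T f (σ y)` for `f ∈ Λ`, `σ ∈ H`;
  `T f (w + y) = ∑ a_k(w) T b_k (y)` if `f(u + v) = ∑ a_k(u) b_k(v)`.
* `s := T e 0` of maximal valuation among `e ∈ Λ`; `s ≠ 0` by Dedekind independence of the
  evaluation characters of `Λ`; `s` is fixed by `H`; `v(T f y) ≤ v(s)` for all `f ∈ Λ`, `y`.
* `s = T e (-x + x) = ∑ a_k(-x) T b_k (x)`, so some `T b_k (x)` has the valuation of `s`;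
  `B := T b_k (x) / s`.

Nothing unproved in this file.
-/

set_option autoImplicit false

open Polynomial

noncomputable section

namespace Fermat.Agent.S56.H656

open Fermat.Agent.S56 Fermat.Agent.S19.H435

/-! ## Integrality -/

section val

variable (P : ValuationSubring Qb) (p : ℕ)

/-- Elements of `ℤ_(p)` are integral at a place over `p`. -/
theorem valuation_Zl_le_one (hp : p.Prime) (hP : P.LiesOverPrime p) (r : Zl p) :
    P.valuation (algebraMap (Zl p) Qb r) ≤ 1 := by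
  obtain ⟨q, hq⟩ := r
  have hq' : q.den.Coprime p := hq
  have e1 : algebraMap (Zl p) Qb ⟨q, hq⟩ = ((q.num : ℤ) : Qb) / ((q.den : ℤ) : Qb) := by
    show algebraMap ℚ Qb q = _
    rw [eq_ratCast]
    have := Rat.cast_def (K := Qb) q
    rw [this]
    push_cast
    rfl
  have hden : P.valuation (((q.den : ℤ)) : Qb) = 1 := by
    apply Fermat.Agent.S14.H894.valuation_intCast_eq_one P p hp hP
    intro hdvd
    have h1 : p ∣ q.den := by exact_mod_cast hdvd
    have h2 : p ∣ Nat.gcd q.den p := Nat.dvd_gcd h1 dvd_rfl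
    rw [Nat.Coprime] at hq'
    rw [hq'] at h2
    exact hp.one_lt.ne' (Nat.dvd_one.mp h2)
  rw [e1, map_div₀, hden, div_one]
  exact Fermat.Agent.S14.H894.valuation_intCast_le_one P _

/-- Elements of `ℚ̄` integral over `ℤ_(p)` are integral at every place over `p`. -/
theorem valuation_le_one_of_isIntegral (hp : p.Prime) (hP : P.LiesOverPrime p) {x : Qb}
    (hx : IsIntegral (Zl p) x) : P.valuation x ≤ 1 := by
  obtain ⟨q, hqm, hqx⟩ := hx
  by_contra hvx
  rw [not_le] at hvx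
  rw [hqm.as_sum, eval₂_add, eval₂_pow, eval₂_X, eval₂_finset_sum, add_eq_zero_iff_eq_neg] at hqx
  replace hqx := congr_arg P.valuation hqx
  refine ne_of_gt ?_ hqx
  rw [Valuation.map_neg, Valuation.map_pow]
  refine Valuation.map_sum_lt' _ (zero_lt_one.trans_le (one_le_pow₀ hvx.le)) fun i hi => ?_
  rw [eval₂_mul, eval₂_pow, eval₂_C, eval₂_X, Valuation.map_mul, Valuation.map_pow,
    ← one_mul (P.valuation x ^ q.natDegree)]
  have hc : P.valuation ((algebraMap (Zl p) Qb) (q.coeff i)) ≤ 1 :=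
    valuation_Zl_le_one P p hp hP _
  have hpow : P.valuation x ^ i < P.valuation x ^ q.natDegree :=
    pow_lt_pow_right₀ hvx (Finset.mem_range.1 hi)
  have hpos : 0 < P.valuation x ^ i := pow_pos (zero_lt_one.trans hvx) i
  calc P.valuation ((algebraMap (Zl p) Qb) (q.coeff i)) * P.valuation x ^ i
      ≤ 1 * P.valuation x ^ i := by gcongr
    _ < 1 * P.valuation x ^ q.natDegree := by
        rw [one_mul, one_mul]; exact hpow

end val

/-! ## The character `ψ = ζ^ξ` -/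

section psi

variable {p : ℕ} [Fact p.Prime] {M : Type} [AddCommGroup M]

/-- The `μ_p`-valued character attached to `ξ : M → 𝔽_p`. -/
def fuPsi (ζ : Qb) (ξ : M →+ ZMod p) (m : M) : Qb := ζ ^ (ξ m).val

variable {ζ : Qb} (hζ : ζ ^ p = 1) (ξ : M →+ ZMod p)

theorem fuPsi_zero (ζ : Qb) : fuPsi ζ ξ 0 = 1 := by
  simp [fuPsi]

include hζ in
theorem fuPsi_add (m n : M) : fuPsi ζ ξ (m + n) = fuPsi ζ ξ m * fuPsi ζ ξ n := by
  unfold fuPsi
  rw [map_add, ZMod.val_add, ← pow_add, ← pow_eq_pow_mod _ hζ]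

include hζ in
theorem fuPsi_neg_mul (m : M) : fuPsi ζ ξ (-m) * fuPsi ζ ξ m = 1 := by
  rw [← fuPsi_add hζ, neg_add_cancel, fuPsi_zero]

theorem fuPsi_map (ζ : Qb) (σ : GQ) (hσ : σ ζ = ζ) (m : M) : σ (fuPsi ζ ξ m) = fuPsi ζ ξ m := by
  unfold fuPsi
  rw [map_pow, hσ]

include hζ in
theorem valuation_fuPsi (P : ValuationSubring Qb) (m : M) : P.valuation (fuPsi ζ ξ m) = 1 := by
  have hp0 : p ≠ 0 := (Fact.out : p.Prime).ne_zero
  have h1 : P.valuation ζ ^ p = 1 := by rw [← Valuation.map_pow, hζ, Valuation.map_one]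
  have h2 : P.valuation ζ = 1 := by
    rcases lt_trichotomy (P.valuation ζ) 1 with h | h | h
    · exact absurd h1 (pow_lt_one₀ zero_le' h hp0).ne
    · exact h
    · exact absurd h1 (one_lt_pow₀ h hp0).ne'
  unfold fuPsi
  rw [Valuation.map_pow, h2, one_pow]

end psi

/-! ## The twisted average -/

section tw

variable {p : ℕ} [Fact p.Prime] {M : Type} [AddCommGroup M] [Fintype M]

open Classical in
/-- The weight `ψ(-t)` on `L`, `0` outside. -/
def fuWt (ζ : Qb) (ξ : M →+ ZMod p) (L : AddSubgroup M) (t : M) : Qb :=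
  if t ∈ L then fuPsi ζ ξ (-t) else 0

/-- `T f (y) = ∑_{t ∈ L} ψ(-t) f (y + t)`. -/
def fuTw (ζ : Qb) (ξ : M →+ ZMod p) (L : AddSubgroup M) (f : M → Qb) (y : M) : Qb :=
  ∑ t : M, fuWt ζ ξ L t * f (y + t)

variable {ζ : Qb} (hζ : ζ ^ p = 1) (ξ : M →+ ZMod p) (L : AddSubgroup M)

theorem fuWt_zero (ζ : Qb) : fuWt ζ ξ L 0 = 1 := by
  unfold fuWt
  rw [if_pos L.zero_mem, neg_zero, fuPsi_zero]

include hζ in
theorem fuWt_shift {t₀ : M} (ht₀ : t₀ ∈ L) (t : M) :
    fuWt ζ ξ L (-t₀ + t) = fuPsi ζ ξ t₀ * fuWt ζ ξ L t := by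
  unfold fuWt
  by_cases ht : t ∈ L
  · rw [if_pos ht, if_pos (L.add_mem (L.neg_mem ht₀) ht), ← fuPsi_add hζ]
    congr 1
    abel
  · have : -t₀ + t ∉ L := by
      intro h
      apply ht
      have := L.add_mem ht₀ h
      rwa [add_neg_cancel_left] at this
    rw [if_neg ht, if_neg this, mul_zero]

theorem valuation_fuWt_le_one (hζ : ζ ^ p = 1) (P : ValuationSubring Qb) (t : M) :
    P.valuation (fuWt ζ ξ L t) ≤ 1 := by
  unfold fuWt
  split_ifs
  · exact (valuation_fuPsi hζ ξ P _).le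
  · rw [Valuation.map_zero]; exact zero_le'

theorem fuWt_map (ζ : Qb) (σ : GQ) (hσ : σ ζ = ζ) (t : M) :
    σ (fuWt ζ ξ L t) = fuWt ζ ξ L t := by
  unfold fuWt
  split_ifs
  · exact fuPsi_map ξ ζ σ hσ _
  · exact map_zero σ

include hζ in
/-- (T1) `T f (y + t₀) = ψ(t₀) T f (y)` for `t₀ ∈ L`. -/
theorem fuTw_add_mem (f : M → Qb) (y : M) {t₀ : M} (ht₀ : t₀ ∈ L) :
    fuTw ζ ξ L f (y + t₀) = fuPsi ζ ξ t₀ * fuTw ζ ξ L f y := by
  unfold fuTw
  rw [Finset.mul_sum]
  rw [← Equiv.sum_comp (Equiv.addLeft t₀)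
    (fun t' => fuPsi ζ ξ t₀ * (fuWt ζ ξ L t' * f (y + t')))]
  refine Finset.sum_congr rfl fun t _ => ?_
  simp only [Equiv.coe_addLeft]
  have h := fuWt_shift hζ ξ L ht₀ (t₀ + t)
  rw [neg_add_cancel_left] at h
  rw [← mul_assoc, ← h, add_assoc]

/-- (T3) `T f (w + y) = ∑ a_k(w) T b_k (y)` when `f (u + v) = ∑ a_k(u) b_k(v)`. -/
theorem fuTw_comul (ζ : Qb) {f : M → Qb} {n : ℕ} {a b : Fin n → M → Qb}
    (hab : ∀ u v : M, f (u + v) = ∑ k, a k u * b k v) (w y : M) :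
    fuTw ζ ξ L f (w + y) = ∑ k, a k w * fuTw ζ ξ L (b k) y := by
  unfold fuTw
  simp only [Finset.mul_sum]
  rw [Finset.sum_comm]
  refine Finset.sum_congr rfl fun t _ => ?_
  rw [add_assoc, hab, Finset.mul_sum]
  refine Finset.sum_congr rfl fun k _ => ?_
  ring

/-- `T` is additive and `ℤ_(p)`-homogeneous in `f`. -/
theorem fuTw_sum_smul (ζ : Qb) {n : ℕ} (c : Fin n → Zl p) (e : Fin n → M → Qb) (y : M) :
    fuTw ζ ξ L (∑ i, c i • e i) y = ∑ i, algebraMap (Zl p) Qb (c i) * fuTw ζ ξ L (e i) y := by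
  unfold fuTw
  simp only [sum_smul_apply', Finset.mul_sum]
  rw [Finset.sum_comm]
  refine Finset.sum_congr rfl fun i _ => Finset.sum_congr rfl fun t _ => ?_
  ring

end tw

/-! ## Hopf lattices -/

section lattice

variable {p : ℕ} [Fact p.Prime] {M : Type} [AddCommGroup M] [Fintype M]
  {act : GQ → M → M} {Λ : Subalgebra (Zl p) (M → Qb)}

/-- Evaluation at a point, as a character of the multiplicative monoid of `Λ`. -/
def fuEv (Λ : Subalgebra (Zl p) (M → Qb)) (t : M) : ↥Λ →* Qb where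
  toFun f := (f : M → Qb) t
  map_one' := rfl
  map_mul' _ _ := rfl

theorem fuEv_injective (hΛ : IsHopfLattice p act Λ) : Function.Injective (fuEv Λ) := by
  intro t₁ t₂ h
  by_contra hne
  obtain ⟨f, hf, hfne⟩ := hΛ.separates _ _ hne
  exact hfne (congrArg (fun φ : ↥Λ →* Qb => φ ⟨f, hf⟩) h)

/-- **Nondegeneracy**: some `f ∈ Λ` has `T f 0 ≠ 0`. -/
theorem exists_fuTw_ne_zero (hΛ : IsHopfLattice p act Λ) (ζ : Qb) (ξ : M →+ ZMod p)
    (L : AddSubgroup M) : ∃ f ∈ Λ, fuTw ζ ξ L f 0 ≠ 0 := by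
  by_contra hcon
  push_neg at hcon
  have hli : LinearIndependent Qb (fun t : M => (fuEv Λ t : ↥Λ → Qb)) :=
    (linearIndependent_monoidHom ↥Λ Qb).comp (fuEv Λ) (fuEv_injective hΛ)
  have hsum : ∑ t : M, fuWt ζ ξ L t • (fuEv Λ t : ↥Λ → Qb) = 0 := by
    funext f
    have := hcon f.1 f.2
    unfold fuTw at this
    simp only [zero_add] at this
    simpa [Finset.sum_apply, fuEv] using this
  have h0 := (Fintype.linearIndependent_iff.mp hli) _ hsum 0
  rw [fuWt_zero] at h0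
  exact one_ne_zero h0

variable (P : ValuationSubring Qb)

theorem valuation_apply_le_one (hΛ : IsHopfLattice p act Λ) (hP : P.LiesOverPrime p)
    {f : M → Qb} (hf : f ∈ Λ) (m : M) : P.valuation (f m) ≤ 1 :=
  valuation_le_one_of_isIntegral P p (Fact.out : p.Prime) hP (hΛ.isIntegral_apply hf m)

/-- There is `e ∈ Λ` with `T e 0 ≠ 0` of maximal valuation. -/
theorem exists_fuTw_max (hΛ : IsHopfLattice p act Λ) (hP : P.LiesOverPrime p) (ζ : Qb)
    (ξ : M →+ ZMod p) (L : AddSubgroup M) :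
    ∃ e ∈ Λ, fuTw ζ ξ L e 0 ≠ 0 ∧
      ∀ f ∈ Λ, P.valuation (fuTw ζ ξ L f 0) ≤ P.valuation (fuTw ζ ξ L e 0) := by
  classical
  obtain ⟨n, e, he, -, -, hexp⟩ := hΛ.exists_basis
  obtain ⟨f₀, hf₀, hne₀⟩ := exists_fuTw_ne_zero hΛ ζ ξ L
  have hbound : ∀ (g : Qb), (∀ i, P.valuation (fuTw ζ ξ L (e i) 0) ≤ P.valuation g) →
      ∀ f ∈ Λ, P.valuation (fuTw ζ ξ L f 0) ≤ P.valuation g := by
    intro g hg f hf
    obtain ⟨c, rfl⟩ := hexp f hf
    rw [fuTw_sum_smul]
    refine Valuation.map_sum_le _ fun i _ => ?_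
    rw [Valuation.map_mul]
    calc P.valuation (algebraMap (Zl p) Qb (c i)) * P.valuation (fuTw ζ ξ L (e i) 0)
        ≤ 1 * P.valuation g :=
          mul_le_mul' (valuation_Zl_le_one P p (Fact.out : p.Prime) hP _) (hg i)
      _ = P.valuation g := one_mul _
  have hn : Nonempty (Fin n) := by
    by_contra hemp
    rw [not_nonempty_iff] at hemp
    have := hbound 0 (fun i => (hemp.false i).elim) f₀ hf₀
    rw [Valuation.map_zero, le_zero_iff, Valuation.zero_iff] at this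
    exact hne₀ this
  obtain ⟨i₀, -, hi₀⟩ := Finset.exists_max_image (Finset.univ : Finset (Fin n))
    (fun i => P.valuation (fuTw ζ ξ L (e i) 0)) ⟨hn.some, Finset.mem_univ _⟩
  have hmax := hbound (fuTw ζ ξ L (e i₀) 0) (fun i => hi₀ i (Finset.mem_univ _))
  refine ⟨e i₀, he i₀, ?_, hmax⟩
  intro h0
  have := hmax f₀ hf₀
  rw [h0, Valuation.map_zero, le_zero_iff, Valuation.zero_iff] at this
  exact hne₀ this

end lattice

/-! ## The theorem -/

/-- **FU** (unit resolvent): the frozen FLAT-O leaf `FlatUnitStatement` of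
`S56/H906/FlatOSpec.lean`. -/
theorem flatUnit : Fermat.Agent.S56.H906.FlatUnitStatement := by
  intro p _ M _ _ act Λ hΛ _ P hP ζ hζ L hfix hdiff ξ x
  classical
  haveI : Fintype M := Fintype.ofFinite M
  have hΛ' : IsHopfLattice p act Λ := hΛ
  have hζp : ζ ^ p = 1 := hζ.pow_eq_one
  -- the normaliser `s`
  obtain ⟨e, he, hs0, hmax⟩ := exists_fuTw_max P hΛ' hP ζ ξ L
  set s : Qb := fuTw ζ ξ L e 0 with hs
  have hvs0 : P.valuation s ≠ 0 := (Valuation.ne_zero_iff _).mpr hs0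
  -- `v(T f y) ≤ v(s)`
  have hbound : ∀ f ∈ Λ, ∀ y : M, P.valuation (fuTw ζ ξ L f y) ≤ P.valuation s := by
    intro f hf y
    obtain ⟨n, a, b, ha, hb, hab⟩ := hΛ'.comul_mem f hf
    have h := fuTw_comul ξ L ζ hab y 0
    rw [add_zero] at h
    rw [h]
    refine Valuation.map_sum_le _ fun k _ => ?_
    rw [Valuation.map_mul]
    calc P.valuation (a k y) * P.valuation (fuTw ζ ξ L (b k) 0)
        ≤ 1 * P.valuation s :=
          mul_le_mul' (valuation_apply_le_one P hΛ' hP (ha k) y) (hmax _ (hb k))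
      _ = P.valuation s := one_mul _
  -- equivariance of `T f` under `H`
  have hequiv : ∀ f ∈ Λ, ∀ σ ∈ P.inertiaSubgroupIn ℚ, σ ζ = ζ → ∀ y : M,
      σ (fuTw ζ ξ L f y) = fuTw ζ ξ L f (act σ y) := by
    intro f hf σ hσ hσζ y
    unfold fuTw
    rw [map_sum]
    refine Finset.sum_congr rfl fun t _ => ?_
    rw [map_mul, fuWt_map ξ L ζ σ hσζ]
    by_cases ht : t ∈ L
    · rw [← hΛ'.equivariant f hf σ, hΛ'.act_add, hfix σ hσ hσζ t ht]
    · unfold fuWt
      rw [if_neg ht, zero_mul, zero_mul]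
  -- some `T b (x)` has the valuation of `s`
  obtain ⟨n, a, b, ha, hb, hab⟩ := hΛ'.comul_mem e he
  have hsx : s = ∑ k, a k (-x) * fuTw ζ ξ L (b k) x := by
    have h := fuTw_comul ξ L ζ hab (-x) x
    rw [neg_add_cancel] at h
    exact h
  obtain ⟨k, hk⟩ : ∃ k, P.valuation (fuTw ζ ξ L (b k) x) = P.valuation s := by
    by_contra hcon
    push_neg at hcon
    have hlt : P.valuation s < P.valuation s := by
      conv_lhs => rw [hsx]
      refine Valuation.map_sum_lt _ hvs0 fun k _ => ?_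
      rw [Valuation.map_mul]
      calc P.valuation (a k (-x)) * P.valuation (fuTw ζ ξ L (b k) x)
          ≤ 1 * P.valuation (fuTw ζ ξ L (b k) x) :=
            mul_le_mul' (valuation_apply_le_one P hΛ' hP (ha k) (-x)) le_rfl
        _ = P.valuation (fuTw ζ ξ L (b k) x) := one_mul _
        _ < P.valuation s := lt_of_le_of_ne (hbound _ (hb k) x) (hcon k)
    exact lt_irrefl _ hlt
  refine ⟨fuTw ζ ξ L (b k) x / s, ?_, fun σ hσ hσζ => ?_⟩
  · rw [map_div₀, hk, div_self hvs0]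
  · have hact0 : act σ 0 = 0 := hΛ'.act_zero σ
    have hσs : σ s = s := by
      rw [hs, hequiv e he σ hσ hσζ 0, hact0]
    have hmem : act σ x - x ∈ L := hdiff σ hσ hσζ x
    have hx : act σ x = x + (act σ x - x) := by abel
    rw [map_div₀, hσs, hequiv _ (hb k) σ hσ hσζ x, hx, fuTw_add_mem hζp ξ L _ x hmem]
    have : x + (act σ x - x) = act σ x := by abel
    rw [this]
    unfold fuPsi
    rw [mul_div_assoc]

end Fermat.Agent.S56.H656

end
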